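/-
S55 / 49-LOC-KUMMER-BR (iv) (helper95), file 2: THE INTRINSIC GALOIS LEVEL STRUCTURE.

`Ω/K` Galois (possibly infinite): `galLevels K Ω : LevelStr (Ω ≃ₐ[K] Ω)`, the normal fixing
subgroups of the finite subextensions.  Base change: for a finite subextension `E`, the open
subgroup `G_E = E.fixingSubgroup ≤ Gal(Ω/K)` with the restricted levels is `Gal(Ω/E)` with its own
levels (`galLevels_baseChange`), hence the level cohomology groups agree (`baseChangeH1`,
`baseChangeH2`).
-/
import Fermat.Agent.S55.KummerBr95.LevelEquiv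
import Fermat.Agent.S55.Profin15.Global

set_option autoImplicit false
set_option linter.style.haveILetI false
set_option linter.unusedSectionVars false

universe u

open CategoryTheory groupCohomology IntermediateField

namespace Fermat.Agent.S55.KummerBr95

open Fermat.Agent.S55.Profin15

section Def

variable (K : Type*) (Ω : Type u) [Field K] [Field Ω] [Algebra K Ω] [IsGalois K Ω]

/-- The Krull level structure of `Gal(Ω/K)`: normal fixing subgroups of finite subextensions. -/
noncomputable def galLevels : LevelStr (Ω ≃ₐ[K] Ω) where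
  levels := {U | U.Normal ∧ ∃ E : IntermediateField K Ω, FiniteDimensional K E ∧
    U = E.fixingSubgroup}
  nonempty := by
    obtain ⟨F', _, hF', hn, _⟩ := exists_normal_ge (K := K) (L := Ω) (⊥ : IntermediateField K Ω)
    exact ⟨F'.fixingSubgroup, hn, F', hF', rfl⟩
  normal := fun U hU => hU.1
  finiteIndex := by
    rintro U ⟨_, F, hF, rfl⟩
    haveI := hF
    exact fixingSubgroup_finiteIndex F
  directed := by
    rintro U ⟨hU, F, hF, rfl⟩ V ⟨hV, F', hF', rfl⟩
    haveI := hF; haveI := hF'
    refine ⟨(F ⊔ F').fixingSubgroup, ⟨?_, F ⊔ F', inferInstance, rfl⟩, ?_⟩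
    · rw [IntermediateField.fixingSubgroup_sup]
      exact Subgroup.normal_inf_normal _ _
    · rw [IntermediateField.fixingSubgroup_sup]

variable {K Ω}

theorem mem_galLevels_iff {U : Subgroup (Ω ≃ₐ[K] Ω)} :
    U ∈ (galLevels K Ω).levels ↔ U.Normal ∧ ∃ E : IntermediateField K Ω,
      FiniteDimensional K E ∧ U = E.fixingSubgroup := Iff.rfl

/-- every finite subextension is fixed by some level -/
theorem exists_galLevel_le (F : IntermediateField K Ω) [FiniteDimensional K F] :
    ∃ U ∈ (galLevels K Ω).levels, U ≤ F.fixingSubgroup := by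
  obtain ⟨F', hle, hF', hn, _⟩ := exists_normal_ge (K := K) (L := Ω) F
  exact ⟨F'.fixingSubgroup, ⟨hn, F', hF', rfl⟩, IntermediateField.fixingSubgroup_antitone hle⟩

/-- the fixing subgroup of a finite subextension is open -/
theorem isOpenSub_fixingSubgroup (F : IntermediateField K Ω) [FiniteDimensional K F] :
    CD3.IsOpenSub (galLevels K Ω) F.fixingSubgroup := exists_galLevel_le F

end Def

/-! ### Base change -/

section BaseChange

variable {K : Type*} {Ω : Type u} [Field K] [Field Ω] [Algebra K Ω] [IsGalois K Ω]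
  (E : IntermediateField K Ω)

theorem finiteDimensional_extendScalars {F E : IntermediateField K Ω} (h : F ≤ E)
    [FiniteDimensional K E] : FiniteDimensional F (extendScalars h) := by
  have : Module.Finite K (extendScalars h) := (inferInstance : Module.Finite K E)
  exact FiniteDimensional.right K F (extendScalars h)

/-- the comparison isomorphism `G_E ≃ Gal(Ω/E)` as a monoid hom -/
noncomputable def fixHom : ↥E.fixingSubgroup →* (Ω ≃ₐ[E] Ω) :=
  (IntermediateField.fixingSubgroupEquiv E : ↥E.fixingSubgroup →* (Ω ≃ₐ[E] Ω))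

theorem fixHom_apply (σ : ↥E.fixingSubgroup) (x : Ω) : fixHom E σ x = (σ : Ω ≃ₐ[K] Ω) x := rfl

/-- **Base change**: `G_E ≤ Gal(Ω/K)` with the restricted levels is `Gal(Ω/E)` with its own
levels. -/
theorem galLevels_baseChange [FiniteDimensional K E] :
    LevelEquiv ((galLevels K Ω).comap E.fixingSubgroup.subtype)
      ((galLevels E Ω).comap (fixHom E)) := by
  constructor
  · rintro W ⟨U, ⟨-, F, hF, rfl⟩, rfl⟩
    haveI := hF
    haveI : FiniteDimensional K ↥(F ⊔ E) := IntermediateField.finiteDimensional_sup F E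
    haveI : FiniteDimensional E (extendScalars (le_sup_right : E ≤ F ⊔ E)) :=
      finiteDimensional_extendScalars _
    obtain ⟨U', hU', hle⟩ := exists_galLevel_le (extendScalars (le_sup_right : E ≤ F ⊔ E))
    refine ⟨U'.comap (fixHom E), ⟨U', hU', rfl⟩, ?_⟩
    intro σ hσ
    have h1 := hle (Subgroup.mem_comap.1 hσ)
    rw [Subgroup.mem_comap, IntermediateField.mem_fixingSubgroup_iff]
    intro x hx
    have h2 := (IntermediateField.mem_fixingSubgroup_iff _ _).1 h1 x
      ((mem_extendScalars _).2 ((le_sup_left : F ≤ F ⊔ E) hx))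
    exact h2
  · rintro W ⟨U, ⟨-, T, hT, rfl⟩, rfl⟩
    haveI := hT
    haveI : FiniteDimensional K ↥(T.restrictScalars K) :=
      (Module.Finite.trans (R := K) E T : Module.Finite K T)
    obtain ⟨U', hU', hle⟩ := exists_galLevel_le (T.restrictScalars K)
    refine ⟨U'.comap E.fixingSubgroup.subtype, ⟨U', hU', rfl⟩, ?_⟩
    intro σ hσ
    have h1 := hle (Subgroup.mem_comap.1 hσ)
    rw [Subgroup.mem_comap, IntermediateField.mem_fixingSubgroup_iff]
    intro x hx
    exact (IntermediateField.mem_fixingSubgroup_iff _ _).1 h1 x hx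

variable {k : Type u} [CommRing k]

/-- `H²` of the open subgroup `G_E` (restricted levels) is `H²` of `Gal(Ω/E)`:
for `M : Rep k Gal(Ω/E)`, `H²(galLevels E Ω; M) ≃ H²(galLevels K Ω |_{G_E}; M|_{G_E})`. -/
noncomputable def baseChangeH2 [FiniteDimensional K E] (M : Rep k (Ω ≃ₐ[E] Ω)) :
    (galLevels E Ω).H2 M ≃ₗ[k]
      ((galLevels K Ω).comap E.fixingSubgroup.subtype).H2 (Rep.res (fixHom E) M) :=
  (resEquiv₂ (galLevels E Ω) (IntermediateField.fixingSubgroupEquiv E) M).trans
    ((galLevels_baseChange E).symm.H2Equiv (Rep.res (fixHom E) M))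

/-- the same in degree one -/
noncomputable def baseChangeH1 [FiniteDimensional K E] (M : Rep k (Ω ≃ₐ[E] Ω)) :
    (galLevels E Ω).H1 M ≃ₗ[k]
      ((galLevels K Ω).comap E.fixingSubgroup.subtype).H1 (Rep.res (fixHom E) M) :=
  (resEquiv₁ (galLevels E Ω) (IntermediateField.fixingSubgroupEquiv E) M).trans
    ((galLevels_baseChange E).symm.H1Equiv (Rep.res (fixHom E) M))

end BaseChange

end Fermat.Agent.S55.KummerBr95
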