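/-
S55 / 49-LOC-KUMMER-BR (iv-b) (helper95), file 4: KUMMER THEORY ON THE KRULL LEVELS, WITH
`ZMod p`-COEFFICIENTS.

`Ω/K` Galois, `G = Gal(Ω/K)`, `𝒰 = galLevels K Ω`, `Ωˣ` the `G`-module of units
(`KummerBr86.Hilbert90Lim.unitsRep (MonoidHom.id G)`).  Hilbert 90 in the limit (helper86) gives
`𝒰.H1 Ωˣ = 0`.  If `ζ ∈ Ω` is a primitive `p`-th root of unity on which `G` acts through
`χ : G →* (ZMod p)ˣ` and `Ω` has `p`-th roots, the Kummer sequence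
`0 → 𝔽_p(χ) --a ↦ ζ^a--> Ωˣ --p--> Ωˣ → 0` (first term: `LevelScalars13.intRep (ofChar χ)`) yields
`𝒰.H2 (ofChar χ) ≃+ (𝒰.H2 Ωˣ)[p]`.
-/
import Fermat.Agent.S55.KummerBr95.GalLevels
import Fermat.Agent.S55.KummerBr86.Hilbert90Lim
import Fermat.Agent.S55.KummerBr86.KummerLES
import Fermat.Agent.S55.LevelScalars13.Basic
import Fermat.Prelude.Def_DualSelmer_ExtConditions

set_option autoImplicit false
set_option linter.style.haveILetI false
set_option linter.unusedSectionVars false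

open CategoryTheory groupCohomology IntermediateField

namespace Fermat.Agent.S55.KummerBr95

open Fermat.Agent.S55.Profin15 Fermat.Agent.S55.KummerBr86.Hilbert90Lim
  Fermat.Agent.S55.KummerBr86.KummerLES Fermat.Agent.S55.LevelScalars13

section Generic

variable {K Ω : Type} [Field K] [Field Ω] [Algebra K Ω] [IsGalois K Ω]

/-- the units of `Ω` as a module over `Gal(Ω/K)` -/
noncomputable abbrev galUnits (K Ω : Type) [Field K] [Field Ω] [Algebra K Ω] :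
    Rep ℤ (Ω ≃ₐ[K] Ω) :=
  unitsRep (MonoidHom.id (Ω ≃ₐ[K] Ω))

theorem galUnits_ρ_apply (g : Ω ≃ₐ[K] Ω) (a : galUnits K Ω) :
    (galUnits K Ω).ρ g a = Additive.ofMul (Units.map ((g : Ω ≃ₐ[K] Ω) : Ω →* Ω)
      (Additive.toMul (a : Additive Ωˣ))) := rfl

/-- every Krull level is the pointwise stabiliser of a set -/
theorem galLevels_pointwise : ∀ V ∈ (galLevels K Ω).levels, ∃ T : Set Ω,
    ∀ s : Ω ≃ₐ[K] Ω, s ∈ V ↔ ∀ x ∈ T, (MonoidHom.id (Ω ≃ₐ[K] Ω)) s x = x := by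
  rintro V ⟨-, E, -, rfl⟩
  exact ⟨(E : Set Ω), fun s => IntermediateField.mem_fixingSubgroup_iff _ _⟩

/-- the units are a smooth module for the Krull levels -/
theorem isSmooth_galUnits : (galLevels K Ω).IsSmooth (galUnits K Ω) := by
  intro m
  set x : Ω := ((Additive.toMul (m : Additive Ωˣ) : Ωˣ) : Ω) with hx
  haveI : FiniteDimensional K (IntermediateField.adjoin K {x} : IntermediateField K Ω) :=
    IntermediateField.adjoin.finiteDimensional (Algebra.IsIntegral.isIntegral x)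
  obtain ⟨U, hU, hle⟩ := exists_galLevel_le (IntermediateField.adjoin K {x} : IntermediateField K Ω)
  refine ⟨U, hU, fun s hs => ?_⟩
  have h1 : s x = x := (IntermediateField.mem_fixingSubgroup_iff _ _).1 (hle hs) x
    (IntermediateField.mem_adjoin_simple_self K x)
  rw [galUnits_ρ_apply]
  exact congrArg Additive.ofMul (Units.ext h1)

/-- **Hilbert 90 in the limit** for the Krull levels. -/
theorem galH1_units_eq_zero (x : (galLevels K Ω).H1 (galUnits K Ω)) : x = 0 :=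
  levelH1_units_eq_zero (MonoidHom.id (Ω ≃ₐ[K] Ω)) (galLevels K Ω) galLevels_pointwise x

end Generic

/-! ### The Kummer sequence with `ZMod p`-coefficients -/

section Kummer

variable {K Ω : Type} [Field K] [Field Ω] [Algebra K Ω]
variable {p : ℕ} [Fact p.Prime]

/-- `a ↦ ζ^a`, `ZMod p →+ Ωˣ` (additive notation on the target) -/
noncomputable def zetaAdd (ζ : Ωˣ) (hζ : ζ ^ p = 1) : ZMod p →+ Additive Ωˣ :=
  ZMod.lift p ⟨zmultiplesHom (Additive Ωˣ) (Additive.ofMul ζ), by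
    show (p : ℤ) • Additive.ofMul ζ = 0
    rw [natCast_zsmul]
    exact congrArg Additive.ofMul hζ⟩

theorem zetaAdd_natCast (ζ : Ωˣ) (hζ : ζ ^ p = 1) (n : ℕ) :
    zetaAdd ζ hζ (n : ZMod p) = Additive.ofMul (ζ ^ n) := by
  have h := ZMod.lift_coe p (⟨zmultiplesHom (Additive Ωˣ) (Additive.ofMul ζ), by
    show (p : ℤ) • Additive.ofMul ζ = 0
    rw [natCast_zsmul]
    exact congrArg Additive.ofMul hζ⟩ : {f : ℤ →+ Additive Ωˣ // f p = 0}) (n : ℤ)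
  rw [Int.cast_natCast] at h
  rw [zetaAdd, h]
  show ((n : ℕ) : ℤ) • Additive.ofMul ζ = _
  rw [natCast_zsmul]
  rfl

theorem zetaAdd_apply (ζ : Ωˣ) (hζ : ζ ^ p = 1) (a : ZMod p) :
    zetaAdd ζ hζ a = Additive.ofMul (ζ ^ a.val) := by
  haveI : NeZero p := ⟨(Fact.out : p.Prime).ne_zero⟩
  conv_lhs => rw [← ZMod.natCast_zmod_val a]
  exact zetaAdd_natCast ζ hζ a.val

theorem zetaAdd_injective {ζ : Ωˣ} (hζ : IsPrimitiveRoot ζ p) :
    Function.Injective (zetaAdd ζ hζ.pow_eq_one) := by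
  haveI : NeZero p := ⟨(Fact.out : p.Prime).ne_zero⟩
  rw [injective_iff_map_eq_zero]
  intro a ha
  obtain ⟨n, rfl⟩ : ∃ n : ℕ, (n : ZMod p) = a := ⟨a.val, ZMod.natCast_zmod_val a⟩
  rw [zetaAdd_natCast] at ha
  have h1 : ζ ^ n = 1 := congrArg Additive.toMul ha
  exact (ZMod.natCast_eq_zero_iff n p).2 ((hζ.pow_eq_one_iff_dvd n).1 h1)

/-- the image of `a ↦ ζ^a` is the `p`-torsion of `Ωˣ` -/
theorem mem_range_zetaAdd_iff {ζ : Ωˣ} (hζ : IsPrimitiveRoot ζ p) (y : Additive Ωˣ) :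
    y ∈ Set.range (zetaAdd ζ hζ.pow_eq_one) ↔ (Additive.toMul y) ^ p = 1 := by
  haveI : NeZero p := ⟨(Fact.out : p.Prime).ne_zero⟩
  constructor
  · rintro ⟨a, rfl⟩
    rw [zetaAdd_apply]
    show (ζ ^ a.val) ^ p = 1
    rw [← pow_mul, mul_comm, pow_mul, hζ.pow_eq_one, one_pow]
  · intro hy
    have hζ' : IsPrimitiveRoot ((ζ : Ωˣ) : Ω) p := IsPrimitiveRoot.coe_units_iff.2 hζ
    have hy' : (((Additive.toMul y : Ωˣ) : Ω)) ^ p = 1 := by
      rw [← Units.val_pow_eq_pow_val, hy, Units.val_one]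
    obtain ⟨i, -, hi⟩ := hζ'.eq_pow_of_pow_eq_one hy'
    refine ⟨(i : ZMod p), ?_⟩
    rw [zetaAdd_natCast]
    refine congrArg Additive.ofMul (Units.ext ?_)
    rw [Units.val_pow_eq_pow_val]
    exact hi

theorem zetaAdd_exact {ζ : Ωˣ} (hζ : IsPrimitiveRoot ζ p) (y : Additive Ωˣ) :
    (p : ℤ) • y = 0 ↔ y ∈ Set.range (zetaAdd ζ hζ.pow_eq_one) := by
  rw [mem_range_zetaAdd_iff hζ, natCast_zsmul]
  exact ⟨fun h => congrArg Additive.toMul h, fun h => congrArg Additive.ofMul h⟩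

variable [IsGalois K Ω] (χ : (Ω ≃ₐ[K] Ω) →* (ZMod p)ˣ)

/-- `𝔽_p(χ)` over `ℤ` -/
noncomputable abbrev intChar : Rep ℤ (Ω ≃ₐ[K] Ω) := intRep (ofChar (k := ZMod p) χ)

/-- `a ↦ ζ^a` as a `ℤ`-linear map `𝔽_p(χ) → Ωˣ` -/
noncomputable def zetaHom (ζ : Ωˣ) (hζ : ζ ^ p = 1) : intChar χ →ₗ[ℤ] galUnits K Ω :=
  (show ZMod p →+ Additive Ωˣ from zetaAdd ζ hζ).toIntLinearMap

theorem zetaHom_apply (ζ : Ωˣ) (hζ : ζ ^ p = 1) (a : ZMod p) :
    zetaHom χ ζ hζ a = zetaAdd ζ hζ a := rfl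

/-- `a ↦ ζ^a` as an additive map `𝔽_p(χ) → Ωˣ` between representations over different rings -/
noncomputable def zetaCross (ζ : Ωˣ) (hζ : ζ ^ p = 1) :
    (ofChar (k := ZMod p) χ) →+ galUnits K Ω :=
  (show ZMod p →+ Additive Ωˣ from zetaAdd ζ hζ)

theorem zetaCross_apply (ζ : Ωˣ) (hζ : ζ ^ p = 1) (a : ZMod p) :
    zetaCross χ ζ hζ a = zetaAdd ζ hζ a := rfl

/-- the twisted action: `g (ζ^a) = ζ^(χ(g) a)` -/
theorem zetaAdd_equivariant {ζ : Ωˣ} (hζ : ζ ^ p = 1)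
    (hχ : ∀ g : Ω ≃ₐ[K] Ω, Units.map ((g : Ω ≃ₐ[K] Ω) : Ω →* Ω) ζ =
      ζ ^ ((χ g : (ZMod p)ˣ) : ZMod p).val) (g : Ω ≃ₐ[K] Ω) (a : ZMod p) :
    zetaAdd ζ hζ (((χ g : (ZMod p)ˣ) : ZMod p) * a) =
      Additive.ofMul (Units.map ((g : Ω ≃ₐ[K] Ω) : Ω →* Ω) (Additive.toMul (zetaAdd ζ hζ a))) := by
  haveI : NeZero p := ⟨(Fact.out : p.Prime).ne_zero⟩
  obtain ⟨n, rfl⟩ : ∃ n : ℕ, (n : ZMod p) = a := ⟨a.val, ZMod.natCast_zmod_val a⟩
  have h1 : (((χ g : (ZMod p)ˣ) : ZMod p) * (n : ZMod p)) =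
      ((((χ g : (ZMod p)ˣ) : ZMod p).val * n : ℕ) : ZMod p) := by
    rw [Nat.cast_mul, ZMod.natCast_zmod_val]
  rw [h1, zetaAdd_natCast, zetaAdd_natCast]
  refine congrArg Additive.ofMul ?_
  show ζ ^ (((χ g : (ZMod p)ˣ) : ZMod p).val * n) = Units.map ((g : Ω ≃ₐ[K] Ω) : Ω →* Ω) (ζ ^ n)
  rw [map_pow, hχ g, pow_mul]

theorem isAddEquivariant_zetaCross {ζ : Ωˣ} (hζ : ζ ^ p = 1)
    (hχ : ∀ g : Ω ≃ₐ[K] Ω, Units.map ((g : Ω ≃ₐ[K] Ω) : Ω →* Ω) ζ =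
      ζ ^ ((χ g : (ZMod p)ˣ) : ZMod p).val) :
    IsAddEquivariant (zetaCross χ ζ hζ) := fun g a =>
  zetaAdd_equivariant χ hζ hχ g a

theorem isEquivariant_zetaHom {ζ : Ωˣ} (hζ : ζ ^ p = 1)
    (hχ : ∀ g : Ω ≃ₐ[K] Ω, Units.map ((g : Ω ≃ₐ[K] Ω) : Ω →* Ω) ζ =
      ζ ^ ((χ g : (ZMod p)ˣ) : ZMod p).val) :
    LevelStr.IsEquivariant (zetaHom χ ζ hζ) := fun g a =>
  zetaAdd_equivariant χ hζ hχ g a

/-- **The Kummer sequence** `0 → 𝔽_p(χ) → Ωˣ → Ωˣ → 0`. -/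
theorem kummer_shortExact_gal {ζ : Ωˣ} (hζ : IsPrimitiveRoot ζ p)
    (hχ : ∀ g : Ω ≃ₐ[K] Ω, Units.map ((g : Ω ≃ₐ[K] Ω) : Ω →* Ω) ζ =
      ζ ^ ((χ g : (ZMod p)ˣ) : ZMod p).val)
    (hroot : ∀ x : Ω, ∃ y : Ω, y ^ p = x) :
    LevelStr.ShortExact (zetaHom χ ζ hζ.pow_eq_one)
      (((p : ℤ)) • LinearMap.id : galUnits K Ω →ₗ[ℤ] galUnits K Ω) where
  equivariant_left := isEquivariant_zetaHom χ hζ.pow_eq_one hχ
  equivariant_right := isEquivariant_smul_id (p : ℤ)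
  injective := zetaAdd_injective hζ
  surjective := by
    intro c
    have hp : p ≠ 0 := (Fact.out : p.Prime).ne_zero
    obtain ⟨y, hy⟩ := hroot ((Additive.toMul (c : Additive Ωˣ) : Ωˣ) : Ω)
    have hy0 : y ≠ 0 := by
      rintro rfl
      rw [zero_pow hp] at hy
      exact (Units.ne_zero _) hy.symm
    refine ⟨Additive.ofMul (Units.mk0 y hy0), ?_⟩
    show (p : ℤ) • (Additive.ofMul (Units.mk0 y hy0) : Additive Ωˣ) = c
    rw [natCast_zsmul]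
    show Additive.ofMul ((Units.mk0 y hy0) ^ p) = c
    have : (Units.mk0 y hy0) ^ p = Additive.toMul (c : Additive Ωˣ) := by
      apply Units.ext
      rw [Units.val_pow_eq_pow_val]
      exact hy
    rw [this]
    rfl
  exact := fun y => zetaAdd_exact hζ y

end Kummer

/-! ### `H²(Gal(Ω/K), 𝔽_p(χ)) = H²(Gal(Ω/K), Ωˣ)[p]` -/

section Equiv

variable {K Ω : Type} [Field K] [Field Ω] [Algebra K Ω] [IsGalois K Ω]
variable {p : ℕ} [Fact p.Prime] (χ : (Ω ≃ₐ[K] Ω) →* (ZMod p)ˣ) {ζ : Ωˣ}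
  (hζ : IsPrimitiveRoot ζ p)
  (hχ : ∀ g : Ω ≃ₐ[K] Ω, Units.map ((g : Ω ≃ₐ[K] Ω) : Ω →* Ω) ζ =
      ζ ^ ((χ g : (ZMod p)ˣ) : ZMod p).val)
  (hroot : ∀ x : Ω, ∃ y : Ω, y ^ p = x)

/-- **Kummer theory on the Krull levels, `ZMod p`-coefficients**:
`H²(Gal(Ω/K), 𝔽_p(χ)) ≃ H²(Gal(Ω/K), Ωˣ)[p]` (level cohomology), `[c] ↦ [ζ^c]`. -/
noncomputable def galKummerH2Equiv :
    (galLevels K Ω).H2 (ofChar (k := ZMod p) χ) ≃+
      ↥(Submodule.torsionBy ℤ ((galLevels K Ω).H2 (galUnits K Ω)) (p : ℤ)) :=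
  (addH2equiv (galLevels K Ω) (toInt (ofChar (k := ZMod p) χ)) (toInt_equivariant _)).trans
    (kummerH2Equiv (galLevels K Ω) (p : ℤ) (kummer_shortExact_gal χ hζ hχ hroot)
      isSmooth_galUnits galH1_units_eq_zero).toAddEquiv

theorem coe_galKummerH2Equiv (x : (galLevels K Ω).H2 (ofChar (k := ZMod p) χ)) :
    ((galKummerH2Equiv χ hζ hχ hroot x :
        ↥(Submodule.torsionBy ℤ ((galLevels K Ω).H2 (galUnits K Ω)) (p : ℤ))) :
      (galLevels K Ω).H2 (galUnits K Ω)) =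
      addH2map (galLevels K Ω) (zetaCross χ ζ hζ.pow_eq_one)
        (isAddEquivariant_zetaCross χ hζ.pow_eq_one hχ) x := by
  obtain ⟨c, rfl⟩ := Submodule.mkQ_surjective _ x
  rfl

include hroot in
/-- every `p`-torsion class of `H²(Ωˣ)` is the Kummer image of a class with `ZMod p`-coefficients -/
theorem exists_addH2map_zetaCross_eq (z : (galLevels K Ω).H2 (galUnits K Ω))
    (hz : (p : ℤ) • z = 0) :
    ∃ x : (galLevels K Ω).H2 (ofChar (k := ZMod p) χ),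
      addH2map (galLevels K Ω) (zetaCross χ ζ hζ.pow_eq_one)
        (isAddEquivariant_zetaCross χ hζ.pow_eq_one hχ) x = z := by
  refine ⟨(galKummerH2Equiv χ hζ hχ hroot).symm
    ⟨z, (Submodule.mem_torsionBy_iff _ _).2 hz⟩, ?_⟩
  rw [← coe_galKummerH2Equiv χ hζ hχ hroot, AddEquiv.apply_symm_apply]

include hroot in
theorem addH2map_zetaCross_injective :
    Function.Injective (addH2map (galLevels K Ω) (zetaCross χ ζ hζ.pow_eq_one)
        (isAddEquivariant_zetaCross χ hζ.pow_eq_one hχ)) := by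
  intro x y hxy
  apply (galKummerH2Equiv χ hζ hχ hroot).injective
  apply Subtype.ext
  rw [coe_galKummerH2Equiv, coe_galKummerH2Equiv, hxy]

end Equiv

/-! ### Trivial coefficients (`ζ_p ∈ K`) -/

section Triv

variable {K Ω : Type} [Field K] [Field Ω] [Algebra K Ω] [IsGalois K Ω]
variable {p : ℕ} [Fact p.Prime] {ζ : Ωˣ} (hζ : IsPrimitiveRoot ζ p)
  (hfix : ∀ g : Ω ≃ₐ[K] Ω, Units.map ((g : Ω ≃ₐ[K] Ω) : Ω →* Ω) ζ = ζ)
  (hroot : ∀ x : Ω, ∃ y : Ω, y ^ p = x)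

/-- the identity `𝔽_p → 𝔽_p(1)`, `1` the trivial character -/
noncomputable def trivToChar :
    (Rep.trivial (ZMod p) (Ω ≃ₐ[K] Ω) (ZMod p)) ≃+
      (ofChar (k := ZMod p) (1 : (Ω ≃ₐ[K] Ω) →* (ZMod p)ˣ)) :=
  AddEquiv.refl (ZMod p)

theorem isAddEquivariant_trivToChar :
    IsAddEquivariant (trivToChar (K := K) (Ω := Ω) (p := p)).toAddMonoidHom := fun g a => by
  show a = ((1 : (ZMod p)ˣ) : ZMod p) • a
  rw [Units.val_one, one_smul]

include hfix in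
theorem hχ_one (g : Ω ≃ₐ[K] Ω) : Units.map ((g : Ω ≃ₐ[K] Ω) : Ω →* Ω) ζ =
    ζ ^ (((1 : (Ω ≃ₐ[K] Ω) →* (ZMod p)ˣ) g : (ZMod p)ˣ) : ZMod p).val := by
  haveI : Fact (1 < p) := ⟨(Fact.out : p.Prime).one_lt⟩
  rw [MonoidHom.one_apply, Units.val_one, ZMod.val_one, pow_one]
  exact hfix g

/-- **`H²(Gal(Ω/K), 𝔽_p) ≃ H²(Gal(Ω/K), Ωˣ)[p]` when `ζ_p ∈ K`** (Krull levels). -/
noncomputable def galKummerTrivH2Equiv :
    (galLevels K Ω).H2 (Rep.trivial (ZMod p) (Ω ≃ₐ[K] Ω) (ZMod p)) ≃+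
      ↥(Submodule.torsionBy ℤ ((galLevels K Ω).H2 (galUnits K Ω)) (p : ℤ)) :=
  (addH2equiv (galLevels K Ω) trivToChar isAddEquivariant_trivToChar).trans
    (galKummerH2Equiv (1 : (Ω ≃ₐ[K] Ω) →* (ZMod p)ˣ) hζ (hχ_one hfix) hroot)

end Triv

/-! ### Open subgroups are fixing subgroups of finite subextensions -/

section Open

variable {K Ω : Type} [Field K] [Field Ω] [Algebra K Ω] [IsGalois K Ω]

theorem exists_fixingSubgroup_eq (V : Subgroup (Ω ≃ₐ[K] Ω))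
    (hV : ∃ W ∈ (galLevels K Ω).levels, W ≤ V) :
    ∃ E : IntermediateField K Ω, FiniteDimensional K E ∧ E.fixingSubgroup = V := by
  obtain ⟨W, ⟨-, F, hF, rfl⟩, hle⟩ := hV
  haveI := hF
  have hopen : IsOpen (V : Set (Ω ≃ₐ[K] Ω)) :=
    Subgroup.isOpen_mono hle F.fixingSubgroup_isOpen
  have hclosed : IsClosed (V : Set (Ω ≃ₐ[K] Ω)) := Subgroup.isClosed_of_isOpen V hopen
  have hle' : IntermediateField.fixedField V ≤ F := by
    rw [← InfiniteGalois.fixedField_fixingSubgroup F]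
    exact IntermediateField.fixedField_le hle
  refine ⟨IntermediateField.fixedField V, ?_,
    InfiniteGalois.fixingSubgroup_fixedField (⟨V, hclosed⟩ : ClosedSubgroup (Ω ≃ₐ[K] Ω))⟩
  exact FiniteDimensional.of_injective (IntermediateField.inclusion hle').toLinearMap
    (IntermediateField.inclusion_injective hle')

end Open

end Fermat.Agent.S55.KummerBr95
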