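/-
S55 / 49-LOC-KUMMER-BR (iv) (helper95), file 3: THE PRELUDE'S LOCAL SHAPES ARE INTRINSIC.

`padicLevels q := galLevels ℚ_q (PadicAlgCl q)` on `primeLocalGaloisGroup q`.  By Krasner
(`Krasner81` K2/K3) the level structures `LocDual26.LocalLevels.localLevels q` and
`Profin15.pullLevels (primeLocalToGlobal q)` pulled back from `G_ℚ` are `LevelEquiv` to it, so
`continuousH2 (primeLocalToGlobal q) N ≃ₗ H²(padicLevels q; N)` (identity on cocycles), and for a
finite extension `K/ℚ_q` the open subgroup `G_K` with the restricted (global!) levels has the level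
cohomology of `Gal(PadicAlgCl q / K)` with its own Krull levels.
-/
import Fermat.Agent.S55.KummerBr95.GalLevels
import Fermat.Agent.S55.LocDual26.LocalLevels
import Fermat.Agent.S55.Krasner81

set_option autoImplicit false
set_option linter.style.haveILetI false

open CategoryTheory groupCohomology ExtCitation IntermediateField
open Fermat.Agent.Lib.FrobeniusExists

namespace Fermat.Agent.S55.KummerBr95

open Fermat.Agent.S55.Profin15 Fermat.Agent.S55.LocDual26.LocalLevels

attribute [local instance] isAlgebraic_Qb isAlgClosure_Qb isGalois_Qb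

/-- The Krull level structure of the local Galois group at `q`. -/
noncomputable def padicLevels (q : Nat.Primes) : LevelStr (primeLocalGaloisGroup q) :=
  letI : Fact (q : ℕ).Prime := ⟨q.2⟩
  galLevels ℚ_[(q : ℕ)] (PadicAlgCl (q : ℕ))

section Compare

variable (q : Nat.Primes)

/-- A level structure on `G_ℚ` "consisting of all finite levels". -/
def IsFull (𝒢 : LevelStr GQ) : Prop :=
  (∀ F : IntermediateField ℚ Qb, FiniteDimensional ℚ F → ∃ U ∈ 𝒢.levels, U ≤ F.fixingSubgroup) ∧
    ∀ U ∈ 𝒢.levels, ∃ F : IntermediateField ℚ Qb, FiniteDimensional ℚ F ∧ F.fixingSubgroup ≤ U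

theorem isFull_fullLevels : IsFull fullLevels :=
  ⟨fun F hF => by haveI := hF; exact exists_fullLevel_le F,
    by rintro U ⟨_, F, hF, rfl⟩; exact ⟨F, hF, le_rfl⟩⟩

theorem isFull_allLevels : IsFull allLevels :=
  ⟨fun F hF => by haveI := hF; exact exists_allLevel_le F,
    by rintro U ⟨_, F, hF, rfl⟩; exact ⟨F, hF, le_rfl⟩⟩

/-- **Krasner**: the levels pulled back from `G_ℚ` are cofinal with the Krull levels of `G_{ℚ_q}`. -/
theorem comap_equiv_padicLevels {𝒢 : LevelStr GQ} (h𝒢 : IsFull 𝒢) :
    LevelEquiv (𝒢.comap (primeLocalToGlobal q)) (padicLevels q) := by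
  letI : Fact (q : ℕ).Prime := ⟨q.2⟩
  constructor
  · rintro W ⟨U, hU, rfl⟩
    obtain ⟨F, hF, hFU⟩ := h𝒢.2 U hU
    haveI := hF
    obtain ⟨L, hL, hLF⟩ := Krasner81.level_fixing (q : ℕ) F
    haveI := hL
    obtain ⟨U', hU', hle⟩ := exists_galLevel_le (K := ℚ_[(q : ℕ)]) (Ω := PadicAlgCl (q : ℕ)) L
    exact ⟨U', hU', fun τ hτ => hFU (hLF τ (hle hτ))⟩
  · rintro W ⟨-, L, hL, rfl⟩
    haveI := hL
    obtain ⟨F, hF, hFL⟩ := Krasner81.exists_level (q : ℕ) L
    obtain ⟨U, hU, hle⟩ := h𝒢.1 F hF
    exact ⟨U.comap (primeLocalToGlobal q), ⟨U, hU, rfl⟩, fun τ hτ => hFL τ (hle hτ)⟩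

theorem localLevels_equiv : LevelEquiv (localLevels q) (padicLevels q) :=
  comap_equiv_padicLevels q isFull_fullLevels

theorem pullLevels_equiv : LevelEquiv (pullLevels (primeLocalToGlobal q)) (padicLevels q) :=
  comap_equiv_padicLevels q isFull_allLevels

variable {k : Type} [CommRing k] (N : Rep k (primeLocalGaloisGroup q))

/-- **The Prelude's local `H²` is the level cohomology of the Krull levels of `G_{ℚ_q}`**
(identity on cocycles). -/
noncomputable def continuousH2PadicEquiv :
    continuousH2 (primeLocalToGlobal q) N ≃ₗ[k] (padicLevels q).H2 N :=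
  (LocDual26.LocalLevels.continuousH2Equiv (primeLocalToGlobal q) N).trans
    ((localLevels_equiv q).H2Equiv N)

theorem continuousH2PadicEquiv_mk (f : ↥(levelCocycles₂ (primeLocalToGlobal q) N)) :
    continuousH2PadicEquiv q N (continuousH2π (primeLocalToGlobal q) N f) =
      (padicLevels q).H2π N ⟨(f : primeLocalGaloisGroup q × primeLocalGaloisGroup q → N),
        (localLevels_equiv q).Z₂_eq N ▸ LocDual26.LocalLevels.levelCocycles₂_eq (primeLocalToGlobal q) N ▸ f.2⟩ :=
  rfl

theorem isSmooth_padic_iff : (localLevels q).IsSmooth N ↔ (padicLevels q).IsSmooth N :=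
  (localLevels_equiv q).isSmooth_iff N

/-- a cochain is level-constant in the Prelude's sense iff it is for the Krull levels -/
theorem isLevelConstant₂_iff_padic {X : Type*}
    (f : primeLocalGaloisGroup q × primeLocalGaloisGroup q → X) :
    IsLevelConstant₂ (primeLocalToGlobal q) f ↔ (padicLevels q).IsConst₂ f :=
  (LocDual26.LocalLevels.isLevelConstant₂_iff (primeLocalToGlobal q) f).trans
    ((localLevels_equiv q).isConst₂_iff f)

theorem isLevelConstant₁_iff_padic {X : Type*} (f : primeLocalGaloisGroup q → X) :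
    IsLevelConstant₁ (primeLocalToGlobal q) f ↔ (padicLevels q).IsConst₁ f :=
  (LocDual26.LocalLevels.isLevelConstant₁_iff (primeLocalToGlobal q) f).trans
    ((localLevels_equiv q).isConst₁_iff f)

end Compare

/-! ### Open subgroups: finite extensions `K/ℚ_q` -/

section OpenSub

theorem fact_prime (q : Nat.Primes) : Fact (q : ℕ).Prime := ⟨q.2⟩

attribute [local instance] fact_prime

variable (q : Nat.Primes) (K : IntermediateField ℚ_[(q : ℕ)] (PadicAlgCl (q : ℕ)))

/-- `G_K = Gal(PadicAlgCl q / K)` as a subgroup of the local Galois group at `q` -/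
noncomputable def GK : Subgroup (primeLocalGaloisGroup q) := K.fixingSubgroup

/-- `G_K → Gal(PadicAlgCl q / K)` -/
noncomputable def GKhom : ↥(GK q K) →* (PadicAlgCl (q : ℕ) ≃ₐ[K] PadicAlgCl (q : ℕ)) := fixHom K

theorem isOpenSub_GK [FiniteDimensional ℚ_[(q : ℕ)] K] :
    ∃ W ∈ (localLevels q).levels, W ≤ GK q K := by
  obtain ⟨U, hU, hle⟩ := exists_galLevel_le (K := ℚ_[(q : ℕ)]) (Ω := PadicAlgCl (q : ℕ)) K
  obtain ⟨W, hW, hWU⟩ := (localLevels_equiv q).2 U hU
  exact ⟨W, hW, hWU.trans hle⟩

/-- the restricted Prelude levels on `G_K` are the Krull levels of `Gal(PadicAlgCl q / K)` -/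
theorem restrict_localLevels_equiv [FiniteDimensional ℚ_[(q : ℕ)] K] :
    LevelEquiv ((localLevels q).comap (GK q K).subtype)
      ((galLevels K (PadicAlgCl (q : ℕ))).comap (GKhom q K)) :=
  ((localLevels_equiv q).comap (GK q K).subtype).trans (galLevels_baseChange K)

variable {k : Type} [CommRing k]

/-- **Naturality in `K`**: `H²(Gal(Ω/K); M)` (Krull levels of `K`) is the level cohomology of the
open subgroup `G_K ≤ G_{ℚ_q}` for the restriction of the Prelude's levels. -/
noncomputable def openSubH2 [FiniteDimensional ℚ_[(q : ℕ)] K]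
    (M : Rep k (PadicAlgCl (q : ℕ) ≃ₐ[K] PadicAlgCl (q : ℕ))) :
    (galLevels K (PadicAlgCl (q : ℕ))).H2 M ≃ₗ[k]
      ((localLevels q).comap (GK q K).subtype).H2 (Rep.res (GKhom q K) M) :=
  (resEquiv₂ (galLevels K (PadicAlgCl (q : ℕ))) (IntermediateField.fixingSubgroupEquiv K) M).trans
    ((restrict_localLevels_equiv q K).symm.H2Equiv (Rep.res (GKhom q K) M))

/-- the same in degree one -/
noncomputable def openSubH1 [FiniteDimensional ℚ_[(q : ℕ)] K]
    (M : Rep k (PadicAlgCl (q : ℕ) ≃ₐ[K] PadicAlgCl (q : ℕ))) :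
    (galLevels K (PadicAlgCl (q : ℕ))).H1 M ≃ₗ[k]
      ((localLevels q).comap (GK q K).subtype).H1 (Rep.res (GKhom q K) M) :=
  (resEquiv₁ (galLevels K (PadicAlgCl (q : ℕ))) (IntermediateField.fixingSubgroupEquiv K) M).trans
    ((restrict_localLevels_equiv q K).symm.H1Equiv (Rep.res (GKhom q K) M))

/-- restricted levels in the shape of `ShapiroLevel32.restrictLevels` -/
theorem restrictLevels32_equiv [FiniteDimensional ℚ_[(q : ℕ)] K] :
    LevelEquiv (ShapiroLevel32.restrictLevels (localLevels q) (GK q K) (isOpenSub_GK q K))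
      ((galLevels K (PadicAlgCl (q : ℕ))).comap (GKhom q K)) :=
  (comap_subtype_equiv_restrictLevels32 (localLevels q) (GK q K) (isOpenSub_GK q K)).symm.trans
    (restrict_localLevels_equiv q K)

/-- restricted levels in the shape of `CD3.restrictLevels` -/
theorem restrictLevelsCD3_equiv [FiniteDimensional ℚ_[(q : ℕ)] K] :
    LevelEquiv (CD3.restrictLevels (localLevels q) (GK q K) (isOpenSub_GK q K))
      ((galLevels K (PadicAlgCl (q : ℕ))).comap (GKhom q K)) :=
  (comap_subtype_equiv_restrictLevelsCD3 (localLevels q) (GK q K) (isOpenSub_GK q K)).symm.trans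
    (restrict_localLevels_equiv q K)

/-- every open subgroup of the local Galois group contains some `G_K`, `K/ℚ_q` finite Galois -/
theorem exists_GK_le {V : Subgroup (primeLocalGaloisGroup q)}
    (hV : ∃ W ∈ (localLevels q).levels, W ≤ V) :
    ∃ K : IntermediateField ℚ_[(q : ℕ)] (PadicAlgCl (q : ℕ)),
      FiniteDimensional ℚ_[(q : ℕ)] K ∧ (GK q K).Normal ∧ GK q K ≤ V := by
  obtain ⟨W, hW, hWV⟩ := hV
  obtain ⟨U, ⟨hUn, K, hK, rfl⟩, hUW⟩ := (localLevels_equiv q).1 W hW
  exact ⟨K, hK, hUn, hUW.trans hWV⟩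

end OpenSub

end Fermat.Agent.S55.KummerBr95
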