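/-
S55 / 49-LOC-KUMMER-BR (iv-b) + P5-LOCAL-BASE (helper95), file 5: `H²(G_K, 𝔽_p) = Br(K)[p]` IN THE
PRELUDE / `Contract34` / `ShapiroLevel32` VOCABULARY.

* `continuousH2MuEquiv` : `continuousH2 r_q (Rep.res r_q (Contract34.mu p)) ≃+ Br(ℚ_q)[p]`,
  `Br(K) := (galLevels K Ω).H2 (galUnits K Ω)`.
* `trivH2BrEquiv` : for a finite extension `K/ℚ_q` containing `ζ_p`, the level cohomology of the open
  subgroup `G_K ≤ G_{ℚ_q}` (levels restricted from the pulled-back global levels,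
  `ShapiroLevel32.restrictLevels`) with coefficients in the trivial module `ZMod p` is `Br(K)[p]`.
* `localBaseDim_of_brTorsionBound` : the local input of `Contract34.LocalDim` (helper32's
  `LocalBaseDim`) from `|Br(K)[p]| ≤ p`.
-/
import Fermat.Agent.S55.KummerBr95.GalKummer
import Fermat.Agent.S55.KummerBr95.Padic
import Fermat.Agent.S55.Contract34
import Fermat.Agent.S55.ShapiroLevel32.Level

set_option autoImplicit false
set_option linter.style.haveILetI false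
set_option linter.unusedSectionVars false

open CategoryTheory groupCohomology ExtCitation IntermediateField
open Fermat.Agent.Lib.FrobeniusExists

namespace Fermat.Agent.S55.KummerBr95

open Fermat.Agent.S55.Profin15 Fermat.Agent.S55.LocDual26.LocalLevels
  Fermat.Agent.S55.LevelScalars13

attribute [local instance] isAlgebraic_Qb isAlgClosure_Qb isGalois_Qb fact_prime

section Zeta

variable (q : Nat.Primes) (p : ℕ) [Fact p.Prime]

/-- the image in `PadicAlgCl q` of a unit of `ℚ̄` -/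
noncomputable def zetaLoc (ζ : Qbˣ) : (PadicAlgCl (q : ℕ))ˣ :=
  Units.map ((padicEmbedding (q : ℕ) : Qb →ₐ[ℚ] PadicAlgCl (q : ℕ)) : Qb →* PadicAlgCl (q : ℕ)) ζ

theorem coe_zetaLoc (ζ : Qbˣ) :
    ((zetaLoc q ζ : (PadicAlgCl (q : ℕ))ˣ) : PadicAlgCl (q : ℕ)) =
      padicEmbedding (q : ℕ) (ζ : Qb) := rfl

theorem zetaLoc_isPrimitiveRoot {ζ : Qbˣ} (hζ : IsPrimitiveRoot ζ p) :
    IsPrimitiveRoot (zetaLoc q ζ) p := by
  have h1 : IsPrimitiveRoot ((ζ : Qbˣ) : Qb) p := IsPrimitiveRoot.coe_units_iff.2 hζ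
  have h2 : IsPrimitiveRoot (padicEmbedding (q : ℕ) (ζ : Qb)) p :=
    h1.map_of_injective (padicEmbedding (q : ℕ)).injective
  exact IsPrimitiveRoot.coe_units_iff.1 (by rw [coe_zetaLoc]; exact h2)

/-- the local Galois group acts on `ζ_p` through the cyclotomic character -/
theorem zetaLoc_spec {ζ : Qbˣ} (hζ : ζ ^ p = 1)
    (s : PadicAlgCl (q : ℕ) ≃ₐ[ℚ_[(q : ℕ)]] PadicAlgCl (q : ℕ)) :
    Units.map ((s : PadicAlgCl (q : ℕ) ≃ₐ[ℚ_[(q : ℕ)]] PadicAlgCl (q : ℕ)) :
        PadicAlgCl (q : ℕ) →* PadicAlgCl (q : ℕ)) (zetaLoc q ζ) =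
      zetaLoc q ζ ^ ((cycloChar p (localGaloisToGlobal (q : ℕ) s) : (ZMod p)ˣ) : ZMod p).val := by
  haveI : NeZero p := ⟨(Fact.out : p.Prime).ne_zero⟩
  have hspec : ((localGaloisToGlobal (q : ℕ) s : Qb ≃ₐ[ℚ] Qb) : Qb ≃+* Qb) (ζ : Qb) =
      (ζ : Qb) ^ ((cycloChar p (localGaloisToGlobal (q : ℕ) s) : (ZMod p)ˣ) : ZMod p).val :=
    modularCyclotomicCharacter.spec (L := Qb) (card_rootsOfUnity_eq_self p)
      ((localGaloisToGlobal (q : ℕ) s : Qb ≃ₐ[ℚ] Qb) : Qb ≃+* Qb)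
      ((mem_rootsOfUnity _ _).2 hζ)
  apply Units.ext
  rw [Units.val_pow_eq_pow_val, coe_zetaLoc]
  show s (padicEmbedding (q : ℕ) (ζ : Qb)) = _
  rw [← padicEmbedding_localGaloisToGlobal, ← map_pow]
  exact congrArg _ hspec

theorem hroot_padic (x : PadicAlgCl (q : ℕ)) : ∃ y : PadicAlgCl (q : ℕ), y ^ p = x :=
  IsAlgClosed.exists_pow_nat_eq x (Fact.out : p.Prime).pos

end Zeta

/-! ### The full local group: `H²(G_{ℚ_q}, μ_p) = Br(ℚ_q)[p]` -/

section Full

variable (q : Nat.Primes) (p : ℕ) [Fact p.Prime]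

/-- the mod `p` cyclotomic character of the local Galois group at `q` -/
noncomputable def cycloLoc :
    (PadicAlgCl (q : ℕ) ≃ₐ[ℚ_[(q : ℕ)]] PadicAlgCl (q : ℕ)) →* (ZMod p)ˣ :=
  (cycloChar p).comp (localGaloisToGlobal (q : ℕ))

theorem cycloLoc_apply (s : PadicAlgCl (q : ℕ) ≃ₐ[ℚ_[(q : ℕ)]] PadicAlgCl (q : ℕ)) :
    cycloLoc q p s = cycloChar p (localGaloisToGlobal (q : ℕ) s) := rfl

/-- `Br(K)` for `K ⊆ PadicAlgCl q`: level cohomology of the units for the Krull levels -/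
noncomputable abbrev BrK (K : IntermediateField ℚ_[(q : ℕ)] (PadicAlgCl (q : ℕ))) : Type :=
  (galLevels K (PadicAlgCl (q : ℕ))).H2 (galUnits K (PadicAlgCl (q : ℕ)))

/-- `Br(ℚ_q)` -/
noncomputable abbrev BrQ : Type :=
  (galLevels ℚ_[(q : ℕ)] (PadicAlgCl (q : ℕ))).H2 (galUnits ℚ_[(q : ℕ)] (PadicAlgCl (q : ℕ)))

/-- `μ_p` restricted to the local group is `𝔽_p(χ_loc)` (identity of `ZMod p`) -/
noncomputable def muToChar :
    (show Rep (ZMod p) (PadicAlgCl (q : ℕ) ≃ₐ[ℚ_[(q : ℕ)]] PadicAlgCl (q : ℕ)) from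
      Rep.res (primeLocalToGlobal q) (Contract34.mu p)) ≃+
      (ofChar (k := ZMod p) (cycloLoc q p)) :=
  AddEquiv.refl (ZMod p)

theorem isAddEquivariant_muToChar : IsAddEquivariant (muToChar q p).toAddMonoidHom :=
  fun _ _ => rfl

variable {p}

/-- **`H²(G_{ℚ_q}, μ_p) ≃ Br(ℚ_q)[p]`** in the Prelude's vocabulary (`continuousH2`,
`Contract34.mu`); the map is `[c] ↦ [ζ^c]`, `ζ` the image of a primitive `p`-th root of unity of
`ℚ̄`. -/
noncomputable def continuousH2MuEquiv {ζ : Qbˣ} (hζ : IsPrimitiveRoot ζ p) :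
    continuousH2 (primeLocalToGlobal q) (Rep.res (primeLocalToGlobal q) (Contract34.mu p)) ≃+
      ↥(Submodule.torsionBy ℤ (BrQ q) (p : ℤ)) :=
  ((continuousH2PadicEquiv q
      (Rep.res (primeLocalToGlobal q) (Contract34.mu p))).toAddEquiv.trans
    (addH2equiv (galLevels ℚ_[(q : ℕ)] (PadicAlgCl (q : ℕ))) (muToChar q p)
      (isAddEquivariant_muToChar q p))).trans
    (galKummerH2Equiv (cycloLoc q p) (zetaLoc_isPrimitiveRoot q p hζ)
      (zetaLoc_spec q p hζ.pow_eq_one) (hroot_padic q p))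

theorem continuousH2MuEquiv_mk {ζ : Qbˣ} (hζ : IsPrimitiveRoot ζ p)
    (f : ↥(levelCocycles₂ (primeLocalToGlobal q)
      (Rep.res (primeLocalToGlobal q) (Contract34.mu p)))) :
    ∃ hmem, ((continuousH2MuEquiv q hζ (continuousH2π (primeLocalToGlobal q)
        (Rep.res (primeLocalToGlobal q) (Contract34.mu p)) f) :
          ↥(Submodule.torsionBy ℤ (BrQ q) (p : ℤ))) : BrQ q) =
      (galLevels ℚ_[(q : ℕ)] (PadicAlgCl (q : ℕ))).H2π
        (galUnits ℚ_[(q : ℕ)] (PadicAlgCl (q : ℕ)))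
        ⟨fun x => zetaAdd (zetaLoc q ζ) (zetaLoc_isPrimitiveRoot q p hζ).pow_eq_one
          ((f : primeLocalGaloisGroup q × primeLocalGaloisGroup q → ZMod p) x), hmem⟩ :=
  ⟨_, rfl⟩

end Full

/-! ### Open subgroups: `H²(G_K, 𝔽_p) = Br(K)[p]` for `ζ_p ∈ K` -/

section OpenSubgroup

variable (q : Nat.Primes) {p : ℕ} [Fact p.Prime]
  (K : IntermediateField ℚ_[(q : ℕ)] (PadicAlgCl (q : ℕ))) [FiniteDimensional ℚ_[(q : ℕ)] K]

/-- restricted levels (shape of `ShapiroLevel32.restrictLevels`) of any level structure with the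
Krull topology are the Krull levels of `Gal(PadicAlgCl q / K)` -/
theorem restrictLevels32_equiv_of {𝒱 : LevelStr (primeLocalGaloisGroup q)}
    (h𝒱 : LevelEquiv 𝒱 (padicLevels q)) (h : ∃ W ∈ 𝒱.levels, W ≤ GK q K) :
    LevelEquiv (ShapiroLevel32.restrictLevels 𝒱 (GK q K) h)
      ((galLevels K (PadicAlgCl (q : ℕ))).comap (GKhom q K)) :=
  (comap_subtype_equiv_restrictLevels32 𝒱 (GK q K) h).symm.trans
    ((h𝒱.comap (GK q K).subtype).trans (galLevels_baseChange K))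

/-- the trivial module of `G_K` is the restriction of the trivial module of `Gal(Ω/K)` -/
noncomputable def trivToRes :
    (Rep.trivial (ZMod p) ↥(GK q K) (ZMod p)) ≃+
      (Rep.res (GKhom q K) (Rep.trivial (ZMod p)
        (PadicAlgCl (q : ℕ) ≃ₐ[K] PadicAlgCl (q : ℕ)) (ZMod p))) :=
  AddEquiv.refl (ZMod p)

theorem isAddEquivariant_trivToRes :
    IsAddEquivariant (trivToRes (p := p) q K).toAddMonoidHom := fun _ _ => rfl

/-- if the cyclotomic character is trivial on `G_K` then `Gal(Ω/K)` fixes `ζ_p` -/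
theorem zetaLoc_fixed {ζ : Qbˣ} (hζ : ζ ^ p = 1)
    (hfix : ∀ s ∈ GK q K, cycloChar p (primeLocalToGlobal q s) = 1)
    (g : PadicAlgCl (q : ℕ) ≃ₐ[K] PadicAlgCl (q : ℕ)) :
    Units.map ((g : PadicAlgCl (q : ℕ) ≃ₐ[K] PadicAlgCl (q : ℕ)) :
      PadicAlgCl (q : ℕ) →* PadicAlgCl (q : ℕ)) (zetaLoc q ζ) = zetaLoc q ζ := by
  haveI : Fact (1 < p) := ⟨(Fact.out : p.Prime).one_lt⟩
  set s : ↥(K.fixingSubgroup) := (IntermediateField.fixingSubgroupEquiv K).symm g with hs
  have h1 := zetaLoc_spec q p hζ (s : PadicAlgCl (q : ℕ) ≃ₐ[ℚ_[(q : ℕ)]] PadicAlgCl (q : ℕ))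
  have h2 : cycloChar p (localGaloisToGlobal (q : ℕ)
      (s : PadicAlgCl (q : ℕ) ≃ₐ[ℚ_[(q : ℕ)]] PadicAlgCl (q : ℕ))) = 1 := hfix _ s.2
  rw [h2, Units.val_one, ZMod.val_one, pow_one] at h1
  apply Units.ext
  have h3 := congrArg (fun u : (PadicAlgCl (q : ℕ))ˣ => (u : PadicAlgCl (q : ℕ))) h1
  have h4 : g = IntermediateField.fixingSubgroupEquiv K s := by
    rw [hs, MulEquiv.apply_symm_apply]
  rw [h4]
  exact h3

/-- **`H²(G_K, 𝔽_p) ≃ Br(K)[p]`** for a finite extension `K/ℚ_q` on whose Galois group the mod `p`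
cyclotomic character is trivial; the left-hand side is the level cohomology of the open subgroup
`G_K ≤ G_{ℚ_q}` for the restriction (`ShapiroLevel32.restrictLevels`) of the levels pulled back from
`G_ℚ`, i.e. literally the group occurring in the local input of `Contract34.LocalDim`. -/
noncomputable def trivH2BrEquiv {𝒱 : LevelStr (primeLocalGaloisGroup q)}
    (h𝒱 : LevelEquiv 𝒱 (padicLevels q)) (h : ∃ W ∈ 𝒱.levels, W ≤ GK q K)
    {ζ : Qbˣ} (hζ : IsPrimitiveRoot ζ p)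
    (hfix : ∀ s ∈ GK q K, cycloChar p (primeLocalToGlobal q s) = 1) :
    (ShapiroLevel32.restrictLevels 𝒱 (GK q K) h).H2 (Rep.trivial (ZMod p) ↥(GK q K) (ZMod p)) ≃+
      ↥(Submodule.torsionBy ℤ (BrK q K) (p : ℤ)) :=
  (((restrictLevels32_equiv_of q K h𝒱 h).H2Equiv
        (Rep.trivial (ZMod p) ↥(GK q K) (ZMod p))).toAddEquiv.trans
    ((addH2equiv _ (trivToRes q K) (isAddEquivariant_trivToRes q K)).trans
      (resEquiv₂ (galLevels K (PadicAlgCl (q : ℕ))) (IntermediateField.fixingSubgroupEquiv K)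
        (Rep.trivial (ZMod p) (PadicAlgCl (q : ℕ) ≃ₐ[K] PadicAlgCl (q : ℕ))
          (ZMod p))).symm.toAddEquiv)).trans
    (galKummerTrivH2Equiv (zetaLoc_isPrimitiveRoot q p hζ)
      (zetaLoc_fixed q K hζ.pow_eq_one hfix) (hroot_padic q p))

end OpenSubgroup

/-! ### The local input of `Contract34.LocalDim` -/

section Final

variable (q : Nat.Primes) (p : ℕ) [Fact p.Prime]

/-- `|Br(K)[p]| ≤ p` for every finite extension `K/ℚ_q` (from the injectivity of the local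
invariant `inv_K : Br(K) → ℚ/ℤ`): THE arithmetic input. -/
def BrTorsionBound : Prop :=
  ∀ K : IntermediateField ℚ_[(q : ℕ)] (PadicAlgCl (q : ℕ)), FiniteDimensional ℚ_[(q : ℕ)] K →
    Finite ↥(Submodule.torsionBy ℤ (BrK q K) (p : ℤ)) ∧
      Nat.card ↥(Submodule.torsionBy ℤ (BrK q K) (p : ℤ)) ≤ p

/-- every open subgroup of the local Galois group is `G_K` for a finite extension `K/ℚ_q` -/
theorem exists_GK_eq (V : Subgroup (primeLocalGaloisGroup q))
    (hV : ∃ W ∈ (padicLevels q).levels, W ≤ V) :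
    ∃ K : IntermediateField ℚ_[(q : ℕ)] (PadicAlgCl (q : ℕ)),
      FiniteDimensional ℚ_[(q : ℕ)] K ∧ GK q K = V :=
  exists_fixingSubgroup_eq (K := ℚ_[(q : ℕ)]) (Ω := PadicAlgCl (q : ℕ)) V hV

theorem exists_primitiveRoot_units : ∃ ζ : Qbˣ, IsPrimitiveRoot ζ p := by
  haveI : NeZero p := ⟨(Fact.out : p.Prime).ne_zero⟩
  haveI : NeZero (p : Qb) := ⟨by exact_mod_cast (Fact.out : p.Prime).ne_zero⟩
  obtain ⟨ζ, hζ⟩ := HasEnoughRootsOfUnity.exists_primitiveRoot Qb p
  obtain ⟨u, rfl⟩ := hζ.isUnit (NeZero.ne p)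
  exact ⟨u, IsPrimitiveRoot.coe_units_iff.1 hζ⟩

/-- `μ_p` is trivial at `g` iff the cyclotomic character is -/
theorem cycloChar_eq_one_of_mu {g : GQ} (h : (Contract34.mu p).ρ g = 1) : cycloChar p g = 1 := by
  have h1 := congrArg (fun f : Module.End (ZMod p) (Contract34.mu p) => f (1 : ZMod p)) h
  apply Units.ext
  have h2 : (Contract34.mu p).ρ g (1 : ZMod p) = ((cycloChar p g : (ZMod p)ˣ) : ZMod p) • (1 : ZMod p) :=
    rfl
  have h3 : ((cycloChar p g : (ZMod p)ˣ) : ZMod p) • (1 : ZMod p) = (1 : ZMod p) := h2.symm.trans h1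
  rw [smul_eq_mul, mul_one] at h3
  rw [h3, Units.val_one]

/-- **The local input of `Contract34.LocalDim`** (helper32's `LocalBaseDim`): for an open subgroup
`V` of the local Galois group on which `μ_p` is trivial, the level `H²(V, 𝔽_p)` (levels restricted
from ANY level structure with the Krull topology, e.g. `pullLevels (primeLocalToGlobal q)`) is
finite of dimension `≤ 1`, given `|Br(K)[p]| ≤ p`. -/
theorem localBaseDim_of_brTorsionBound (hBr : BrTorsionBound q p)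
    {𝒱 : LevelStr (primeLocalGaloisGroup q)} (h𝒱 : LevelEquiv 𝒱 (padicLevels q))
    (V : Subgroup (primeLocalGaloisGroup q)) (h : ∃ W ∈ 𝒱.levels, W ≤ V)
    (hμ : ∀ s ∈ V, (Contract34.mu p).ρ (primeLocalToGlobal q s) = 1) :
    Module.Finite (ZMod p)
        ((ShapiroLevel32.restrictLevels 𝒱 V h).H2 (Rep.trivial (ZMod p) ↥V (ZMod p))) ∧
      Module.finrank (ZMod p)
        ((ShapiroLevel32.restrictLevels 𝒱 V h).H2 (Rep.trivial (ZMod p) ↥V (ZMod p))) ≤ 1 := by
  have hV' : ∃ W ∈ (padicLevels q).levels, W ≤ V := by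
    obtain ⟨W, hW, hle⟩ := h
    obtain ⟨W', hW', hle'⟩ := h𝒱.1 W hW
    exact ⟨W', hW', hle'.trans hle⟩
  obtain ⟨K, hK, rfl⟩ := exists_GK_eq q V hV'
  haveI := hK
  obtain ⟨ζ, hζ⟩ := exists_primitiveRoot_units p
  have e := trivH2BrEquiv q K h𝒱 h hζ (fun s hs => cycloChar_eq_one_of_mu p (hμ s hs))
  obtain ⟨hfin, hcard⟩ := hBr K hK
  haveI : Finite ((ShapiroLevel32.restrictLevels 𝒱 (GK q K) h).H2
      (Rep.trivial (ZMod p) ↥(GK q K) (ZMod p))) := Finite.of_equiv _ e.symm.toEquiv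
  have hc : Nat.card ((ShapiroLevel32.restrictLevels 𝒱 (GK q K) h).H2
      (Rep.trivial (ZMod p) ↥(GK q K) (ZMod p))) ≤ p := by
    rw [Nat.card_congr e.toEquiv]
    exact hcard
  haveI : Module.Finite (ZMod p) ((ShapiroLevel32.restrictLevels 𝒱 (GK q K) h).H2
      (Rep.trivial (ZMod p) ↥(GK q K) (ZMod p))) := Module.Finite.of_finite
  refine ⟨inferInstance, ?_⟩
  rw [Module.natCard_eq_pow_finrank (K := ZMod p), Nat.card_zmod] at hc
  have hp1 : 1 < p := (Fact.out : p.Prime).one_lt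
  by_contra hlt
  have : p ^ 2 ≤ p := (Nat.pow_le_pow_right (Fact.out : p.Prime).pos (not_le.1 hlt)).trans hc
  nlinarith

/-- the same for the levels pulled back from `G_ℚ` (the case used by `Contract34.LocalDim`) -/
theorem localBaseDim_pullLevels (hBr : BrTorsionBound q p)
    (V : Subgroup (primeLocalGaloisGroup q))
    (h : ∃ W ∈ (pullLevels (primeLocalToGlobal q)).levels, W ≤ V)
    (hμ : ∀ s ∈ V, (Contract34.mu p).ρ (primeLocalToGlobal q s) = 1) :
    Module.Finite (ZMod p)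
        ((ShapiroLevel32.restrictLevels (pullLevels (primeLocalToGlobal q)) V h).H2
          (Rep.trivial (ZMod p) ↥V (ZMod p))) ∧
      Module.finrank (ZMod p)
        ((ShapiroLevel32.restrictLevels (pullLevels (primeLocalToGlobal q)) V h).H2
          (Rep.trivial (ZMod p) ↥V (ZMod p))) ≤ 1 :=
  localBaseDim_of_brTorsionBound q p hBr (pullLevels_equiv q) V h hμ

/-- LITERAL shape of the local input of `Contract34.LocalDim` after level Shapiro
(`ShapiroLevel32.kerLevels`, `ShapiroLevel32.triv`): `U` a normal subgroup of `G_ℚ` on which `μ_p`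
is trivial, the group is `r_q⁻¹(U) = ker (G_{ℚ_q} → G_ℚ/U)`. -/
theorem localBaseDim_ker (hBr : BrTorsionBound q p) (U : Subgroup GQ) [U.Normal]
    (hU : ∀ s ∈ U, (Contract34.mu p).ρ s = 1)
    (hker : ∃ W ∈ (pullLevels (primeLocalToGlobal q)).levels,
      W ≤ ((QuotientGroup.mk' U).comp (primeLocalToGlobal q)).ker) :
    Module.Finite (ZMod p)
        ((ShapiroLevel32.kerLevels (pullLevels (primeLocalToGlobal q)) hker).H2
          (ShapiroLevel32.triv (ZMod p)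
            ↥((QuotientGroup.mk' U).comp (primeLocalToGlobal q)).ker)) ∧
      Module.finrank (ZMod p)
        ((ShapiroLevel32.kerLevels (pullLevels (primeLocalToGlobal q)) hker).H2
          (ShapiroLevel32.triv (ZMod p)
            ↥((QuotientGroup.mk' U).comp (primeLocalToGlobal q)).ker)) ≤ 1 :=
  localBaseDim_pullLevels q p hBr _ hker (fun s hs => hU _ (by
    have h1 : (QuotientGroup.mk' U) (primeLocalToGlobal q s) = 1 := MonoidHom.mem_ker.1 hs
    exact (QuotientGroup.eq_one_iff _).1 h1))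

end Final

end Fermat.Agent.S55.KummerBr95
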