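/-
S55 / P5 (helper95), file 7: PRODUCING `BrTorsionBound q p` FROM AN INJECTIVE LOCAL INVARIANT.

* `torsionBound_of_injective` : an injective additive map `B →+ T` into a group whose `p`-torsion
  has at most `p` elements bounds `B[p]`.
* `brTorsionBound_of_inv` : `BrTorsionBound q p` from injective `inv_K : Br(K) →+ AddCircle (1:ℚ)`
  (the shape of `LocInv28.Abstract.IsLocalInv.inv_injective`).
* `brKEquivSub` : `Br(K)` (Krull levels of `Gal(Ω/K)`) is the level `H²` of the open subgroup
  `G_K ≤ G_{ℚ_q}` with coefficients the restriction of `Ωˣ`, for the restriction of any level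
  structure with the Krull topology — so an invariant constructed on `G_K ≤ G_{ℚ_q}` serves.
-/
import Fermat.Agent.S55.KummerBr95.LocalBase

set_option autoImplicit false
set_option linter.style.haveILetI false
set_option linter.unusedSectionVars false

open CategoryTheory groupCohomology ExtCitation IntermediateField
open Fermat.Agent.Lib.FrobeniusExists

namespace Fermat.Agent.S55.KummerBr95

open Fermat.Agent.S55.Profin15 Fermat.Agent.S55.LocDual26.LocalLevels
  Fermat.Agent.S55.LevelScalars13

attribute [local instance] isAlgebraic_Qb isAlgClosure_Qb isGalois_Qb fact_prime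

section Abstract

/-- an injective additive map into a group with at most `p` elements of `p`-torsion bounds the
`p`-torsion of the source -/
theorem torsionBound_of_injective {B T : Type*} [AddCommGroup B] [AddCommGroup T]
    (inv : B →+ T) (hinj : Function.Injective inv) (p : ℕ)
    (hT : {t : T | p • t = 0}.encard ≤ p) :
    Finite ↥(Submodule.torsionBy ℤ B (p : ℤ)) ∧
      Nat.card ↥(Submodule.torsionBy ℤ B (p : ℤ)) ≤ p := by
  have hfinT : {t : T | p • t = 0}.Finite := Set.finite_of_encard_le_coe hT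
  let f : ↥(Submodule.torsionBy ℤ B (p : ℤ)) → ↥{t : T | p • t = 0} := fun x =>
    ⟨inv x.1, by
      have hx : (p : ℤ) • (x.1 : B) = 0 := (Submodule.mem_torsionBy_iff _ _).1 x.2
      rw [natCast_zsmul] at hx
      show p • inv x.1 = 0
      rw [← map_nsmul, hx, map_zero]⟩
  have hf : Function.Injective f := fun x y hxy =>
    Subtype.ext (hinj (congrArg Subtype.val hxy))
  haveI : Finite ↥{t : T | p • t = 0} := hfinT.to_subtype
  refine ⟨Finite.of_injective f hf, ?_⟩
  have h1 : Nat.card ↥(Submodule.torsionBy ℤ B (p : ℤ)) ≤ Nat.card ↥{t : T | p • t = 0} :=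
    Nat.card_le_card_of_injective f hf
  have h2 : Nat.card ↥{t : T | p • t = 0} = {t : T | p • t = 0}.ncard := rfl
  have h3 : ({t : T | p • t = 0}.ncard : ℕ∞) ≤ p := by
    rw [hfinT.cast_ncard_eq]
    exact hT
  exact h1.trans (h2 ▸ (by exact_mod_cast h3))

/-- the `p`-torsion of `ℚ/ℤ` has at most `p` elements -/
theorem encard_torsion_addCircle_le (p : ℕ) (hp : p ≠ 0) :
    {t : AddCircle (1 : ℚ) | p • t = 0}.encard ≤ p :=
  AddCircle.card_torsion_le_of_isSMulRegular (1 : ℚ) p hp
    (IsSMulRegular.of_right_eq_zero_of_smul fun x hx => by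
      rcases smul_eq_zero.1 hx with h | h
      · exact absurd h hp
      · exact h)

end Abstract

section Padic

variable (q : Nat.Primes) (p : ℕ) [Fact p.Prime]

/-- **`BrTorsionBound` from an injective invariant** with values in any group whose `p`-torsion
has at most `p` elements. -/
theorem brTorsionBound_of_injective
    (h : ∀ K : IntermediateField ℚ_[(q : ℕ)] (PadicAlgCl (q : ℕ)),
      FiniteDimensional ℚ_[(q : ℕ)] K →
      ∃ (T : Type) (_ : AddCommGroup T) (inv : BrK q K →+ T),
        Function.Injective inv ∧ {t : T | p • t = 0}.encard ≤ p) :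
    BrTorsionBound q p := by
  intro K hK
  obtain ⟨T, _, inv, hinj, hT⟩ := h K hK
  exact torsionBound_of_injective inv hinj p hT

/-- **`BrTorsionBound` from injective invariants `inv_K : Br(K) →+ ℚ/ℤ`.** -/
theorem brTorsionBound_of_inv
    (h : ∀ K : IntermediateField ℚ_[(q : ℕ)] (PadicAlgCl (q : ℕ)),
      FiniteDimensional ℚ_[(q : ℕ)] K →
      ∃ inv : BrK q K →+ AddCircle (1 : ℚ), Function.Injective inv) :
    BrTorsionBound q p := by
  refine brTorsionBound_of_injective q p fun K hK => ?_
  obtain ⟨inv, hinj⟩ := h K hK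
  exact ⟨AddCircle (1 : ℚ), inferInstance, inv, hinj,
    encard_torsion_addCircle_le p (Fact.out : p.Prime).ne_zero⟩

end Padic

/-! ### Change of carrier: `Br(K)` on the open subgroup `G_K ≤ G_{ℚ_q}` -/

section Carrier

variable (q : Nat.Primes)
  (K : IntermediateField ℚ_[(q : ℕ)] (PadicAlgCl (q : ℕ))) [FiniteDimensional ℚ_[(q : ℕ)] K]

/-- the units of `Ω` as a module over the local Galois group at `q` -/
noncomputable abbrev padicUnits : Rep ℤ (primeLocalGaloisGroup q) :=
  (galUnits ℚ_[(q : ℕ)] (PadicAlgCl (q : ℕ)) :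
    Rep ℤ (PadicAlgCl (q : ℕ) ≃ₐ[ℚ_[(q : ℕ)]] PadicAlgCl (q : ℕ)))

/-- restricting `Ωˣ` from `Gal(Ω/K)` along `G_K → Gal(Ω/K)` or from `G_{ℚ_q}` along
`G_K ≤ G_{ℚ_q}` gives the same `G_K`-module (identity) -/
noncomputable def unitsResEquiv :
    (Rep.res (GKhom q K) (galUnits K (PadicAlgCl (q : ℕ)))) ≃+
      (Rep.res (GK q K).subtype (padicUnits q)) :=
  AddEquiv.refl (Additive (PadicAlgCl (q : ℕ))ˣ)

theorem isAddEquivariant_unitsResEquiv :
    IsAddEquivariant (unitsResEquiv q K).toAddMonoidHom := fun _ _ => rfl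

/-- **`Br(K)` computed on `G_K ≤ G_{ℚ_q}`**: for any level structure `𝒱` on the local Galois group
with the Krull topology (`pullLevels (primeLocalToGlobal q)`, `localLevels q`, `padicLevels q`),
`Br(K) ≃+ H²(𝒱|_{G_K}; Ωˣ|_{G_K})`. -/
noncomputable def brKEquivSub {𝒱 : LevelStr (primeLocalGaloisGroup q)}
    (h𝒱 : LevelEquiv 𝒱 (padicLevels q)) :
    BrK q K ≃+ (𝒱.comap (GK q K).subtype).H2 (Rep.res (GK q K).subtype (padicUnits q)) :=
  ((resEquiv₂ (galLevels K (PadicAlgCl (q : ℕ))) (IntermediateField.fixingSubgroupEquiv K)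
      (galUnits K (PadicAlgCl (q : ℕ)))).toAddEquiv.trans
    (((h𝒱.comap (GK q K).subtype).trans (galLevels_baseChange K)).symm.H2Equiv
      (Rep.res (GKhom q K) (galUnits K (PadicAlgCl (q : ℕ))))).toAddEquiv).trans
    (addH2equiv _ (unitsResEquiv q K) (isAddEquivariant_unitsResEquiv q K))

/-- the same with `ShapiroLevel32.restrictLevels` -/
noncomputable def brKEquivRestrict {𝒱 : LevelStr (primeLocalGaloisGroup q)}
    (h𝒱 : LevelEquiv 𝒱 (padicLevels q)) (h : ∃ W ∈ 𝒱.levels, W ≤ GK q K) :
    BrK q K ≃+ (ShapiroLevel32.restrictLevels 𝒱 (GK q K) h).H2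
      (Rep.res (GK q K).subtype (padicUnits q)) :=
  (brKEquivSub q K h𝒱).trans
    ((comap_subtype_equiv_restrictLevels32 𝒱 (GK q K) h).H2Equiv
      (Rep.res (GK q K).subtype (padicUnits q))).toAddEquiv

end Carrier

/-- **`BrTorsionBound` from injective invariants on the open subgroups `G_K ≤ G_{ℚ_q}`**
(coefficients `Ωˣ` restricted from `G_{ℚ_q}`, levels restricted from any `𝒱` with the Krull
topology). -/
theorem brTorsionBound_of_inv_sub (q : Nat.Primes) (p : ℕ) [Fact p.Prime]
    {𝒱 : LevelStr (primeLocalGaloisGroup q)} (h𝒱 : LevelEquiv 𝒱 (padicLevels q))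
    (h : ∀ K : IntermediateField ℚ_[(q : ℕ)] (PadicAlgCl (q : ℕ)),
      FiniteDimensional ℚ_[(q : ℕ)] K →
      ∃ inv : (𝒱.comap (GK q K).subtype).H2 (Rep.res (GK q K).subtype (padicUnits q)) →+
        AddCircle (1 : ℚ), Function.Injective inv) :
    BrTorsionBound q p := by
  refine brTorsionBound_of_inv q p fun K hK => ?_
  haveI := hK
  obtain ⟨inv, hinj⟩ := h K hK
  exact ⟨inv.comp (brKEquivSub q K h𝒱).toAddMonoidHom,
    hinj.comp (brKEquivSub q K h𝒱).injective⟩

end Fermat.Agent.S55.KummerBr95
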