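/-
S55 / P5 + W59-(P4b) (helper95), file 6: GLUE.  The three landed shapes of "the local `H²` with
`𝔽_p`-coefficients has dimension `≤ 1`" all follow from `KummerBr95.BrTorsionBound q p`
(`|Br(K)[p]| ≤ p` for every finite `K/ℚ_q`):

* `ShapiroLevel32.LocalBaseDim p S` (helper32)  ⟹ `Contract34.LocalDim p S`;
* `LocalDimW59_86.LocalTrivDim p q` (helper86)  ⟹ `R3Local52.LocalDim p S`;
* `LocalBase88.LocalBrDim p q` (helper88).
-/
import Fermat.Agent.S55.KummerBr95.LocalBase
import Fermat.Agent.S55.LocalBrCard88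
import Fermat.Agent.S55.LocalDimW59_86
import Fermat.Agent.S55.ShapiroLevel32.LocalDim

set_option autoImplicit false
set_option linter.style.haveILetI false
set_option linter.unusedSectionVars false

open CategoryTheory groupCohomology ExtCitation IntermediateField
open Fermat.Agent.Lib.FrobeniusExists

namespace Fermat.Agent.S55.KummerBr95

open Fermat.Agent.S55.Profin15 Fermat.Agent.S55.LocDual26.LocalLevels

attribute [local instance] isAlgebraic_Qb isAlgClosure_Qb isGalois_Qb fact_prime

variable (p : ℕ) [Fact p.Prime]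

/-- helper86's producer-side Prop -/
theorem localTrivDim_of_brTorsionBound (q : Nat.Primes) (hBr : BrTorsionBound q p) :
    LocalDimW59_86.LocalTrivDim p q :=
  fun N h hμ => localBaseDim_pullLevels q p hBr N h hμ

/-- helper32's local base case -/
theorem localBaseDim32_of_brTorsionBound (S : Finset Nat.Primes)
    (hBr : ∀ q ∈ S, BrTorsionBound q p) : ShapiroLevel32.LocalBaseDim p S := by
  intro q U _ hμ N hN h
  subst hN
  exact localBaseDim_pullLevels q.1 p (hBr q.1 q.2) _ h (fun s hs => hμ _ hs)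

/-- **(P5) `Contract34.LocalDim` from `|Br(K)[p]| ≤ p`.** -/
theorem localDim_of_brTorsionBound (S : Finset Nat.Primes)
    (hBr : ∀ q ∈ S, BrTorsionBound q p) : Contract34.LocalDim p S :=
  ShapiroLevel32.localDim_of_base p S (localBaseDim32_of_brTorsionBound p S hBr)

/-- the local dimension input of route W59 -/
theorem r3LocalDim_of_brTorsionBound (S : Finset Nat.Primes) (hpS : pPrime p ∈ S)
    (hBr : ∀ q ∈ S, BrTorsionBound q p) : R3Local52.LocalDim p S :=
  LocalDimW59_86.localDim_of_trivDim hpS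
    (fun q => localTrivDim_of_brTorsionBound p q.1 (hBr q.1 q.2))

/-- helper88's intrinsic Prop -/
theorem localBrDim_of_brTorsionBound (q : Nat.Primes) (hBr : BrTorsionBound q p) :
    LocalBase88.LocalBrDim p q := by
  refine LocalBrCard88.localBrDim_of_card p q (fun K hK hζK => ?_)
  haveI := hK
  obtain ⟨ζ, hζ⟩ := exists_primitiveRoot_units p
  have hmem : ((zetaLoc q ζ : (PadicAlgCl (q : ℕ))ˣ) : PadicAlgCl (q : ℕ)) ∈ K := by
    apply hζK
    rw [← Units.val_pow_eq_pow_val, (zetaLoc_isPrimitiveRoot q p hζ).pow_eq_one, Units.val_one]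
  have e := galKummerTrivH2Equiv (K := K) (zetaLoc_isPrimitiveRoot q p hζ)
    (fun g => Units.ext (g.commutes ⟨_, hmem⟩)) (hroot_padic q p)
  obtain ⟨hfin, hcard⟩ := hBr K hK
  exact ⟨Finite.of_equiv _ e.symm.toEquiv, (Nat.card_congr e.toEquiv).trans_le hcard⟩

end Fermat.Agent.S55.KummerBr95
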