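/-
S55 / P5 (helper95), file 8: `BrTorsionBound q p` FROM helper28's LOCAL INVARIANT (`LocInv28`).

Carrier of `LocInv28.Padic`: `G_K = ↥K.fixingSubgroup`, `AK K = Rep.res subtype (Ωˣ)`; any level
structure on `G_K` with the Krull topology.  `IsLocalInv` gives an injective
`inv : H²(G_K, Ωˣ) →+ ℚ/ℤ`, hence `|Br(K)[p]| ≤ p`, hence (LocalGlue) `Contract34.LocalDim`.
-/
import Fermat.Agent.S55.KummerBr95.BrBound
import Fermat.Agent.S55.KummerBr95.LocalGlue
import Fermat.Agent.S55.LocInv28.Padic

set_option autoImplicit false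
set_option linter.style.haveILetI false
set_option linter.unusedSectionVars false

open CategoryTheory groupCohomology ExtCitation IntermediateField
open Fermat.Agent.Lib.FrobeniusExists

namespace Fermat.Agent.S55.KummerBr95

open Fermat.Agent.S55.Profin15 Fermat.Agent.S55.LocDual26.LocalLevels
  Fermat.Agent.S55.LevelScalars13 Fermat.Agent.S55.LocInv28.Abstract
open Fermat.Agent.S55.LocInv28.Padic (AK GoodLevels padicDatum isLocalInv_of_pres)

attribute [local instance] isAlgebraic_Qb isAlgClosure_Qb isGalois_Qb fact_prime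

section Carrier28

variable (q : Nat.Primes)
  (K : IntermediateField ℚ_[(q : ℕ)] (PadicAlgCl (q : ℕ)))

/-- helper28's level structure on `G_K`: the Krull levels of `G_{ℚ_q}` restricted to `G_K` -/
noncomputable abbrev levelsK28 : LevelStr (LocInv28.Padic.GK K) :=
  (galLevels ℚ_[(q : ℕ)] (PadicAlgCl (q : ℕ))).comap K.fixingSubgroup.subtype

/-- helper28's module `AK K` is my `Rep.res subtype (padicUnits q)` (identity) -/
noncomputable def akEquiv :
    (Rep.res (GK q K).subtype (padicUnits q)) ≃+ (AK K) :=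
  AddEquiv.refl (Additive (PadicAlgCl (q : ℕ))ˣ)

theorem isAddEquivariant_akEquiv : IsAddEquivariant (akEquiv q K).toAddMonoidHom :=
  fun _ _ => rfl

variable [FiniteDimensional ℚ_[(q : ℕ)] K]

/-- `Br(K)` is the level `H²` of helper28's carrier, for any level structure `𝒰` on `G_K` with the
Krull topology -/
noncomputable def brKEquiv28 {𝒰 : LevelStr (LocInv28.Padic.GK K)}
    (h𝒰 : LevelEquiv 𝒰 ((padicLevels q).comap (GK q K).subtype)) :
    BrK q K ≃+ 𝒰.H2 (AK K) :=
  ((brKEquivSub q K (LevelEquiv.refl (padicLevels q))).trans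
    (addH2equiv _ (akEquiv q K) (isAddEquivariant_akEquiv q K))).trans
    (h𝒰.symm.H2Equiv (AK K)).toAddEquiv

/-- the restricted Krull levels are good in the sense of `LocInv28.Padic` -/
theorem goodLevels_levelsK28 : GoodLevels K (levelsK28 q K) where
  smooth := by
    intro x
    haveI : FiniteDimensional ℚ_[(q : ℕ)]
        (IntermediateField.adjoin ℚ_[(q : ℕ)] {x} :
          IntermediateField ℚ_[(q : ℕ)] (PadicAlgCl (q : ℕ))) :=
      IntermediateField.adjoin.finiteDimensional (Algebra.IsIntegral.isIntegral x)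
    obtain ⟨U, hU, hle⟩ := exists_galLevel_le
      (IntermediateField.adjoin ℚ_[(q : ℕ)] {x} :
        IntermediateField ℚ_[(q : ℕ)] (PadicAlgCl (q : ℕ)))
    refine ⟨U.comap K.fixingSubgroup.subtype, ⟨U, hU, rfl⟩, fun s hs => ?_⟩
    exact (IntermediateField.mem_fixingSubgroup_iff _ _).1 (hle (Subgroup.mem_comap.1 hs)) x
      (IntermediateField.mem_adjoin_simple_self _ x)
  closed := by
    rintro W ⟨U, ⟨-, E, -, rfl⟩, rfl⟩
    exact ⟨(E : Set (PadicAlgCl (q : ℕ))), fun s =>
      Subgroup.mem_comap.trans (IntermediateField.mem_fixingSubgroup_iff _ _)⟩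

end Carrier28

section Bound28

variable (q : Nat.Primes) (p : ℕ) [Fact p.Prime]

/-- **`BrTorsionBound` from helper28's local invariant**, any level structure with the Krull
topology, any datum. -/
theorem brTorsionBound_of_isLocalInv
    (h : ∀ K : IntermediateField ℚ_[(q : ℕ)] (PadicAlgCl (q : ℕ)),
      FiniteDimensional ℚ_[(q : ℕ)] K →
      ∃ 𝒰 : LevelStr (LocInv28.Padic.GK K), LevelEquiv 𝒰 ((padicLevels q).comap (GK q K).subtype) ∧
        ∃ D : InvDatum 𝒰 (AK K), IsLocalInv 𝒰 (AK K) D) :
    BrTorsionBound q p := by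
  refine brTorsionBound_of_inv q p fun K hK => ?_
  haveI := hK
  obtain ⟨𝒰, h𝒰, D, hD⟩ := h K hK
  exact ⟨hD.inv.comp (brKEquiv28 q K h𝒰).toAddMonoidHom,
    hD.inv_injective.comp (brKEquiv28 q K h𝒰).injective⟩

/-- the same for helper28's named levels `levelsK K` -/
theorem brTorsionBound_of_isLocalInv_levelsK
    (h : ∀ K : IntermediateField ℚ_[(q : ℕ)] (PadicAlgCl (q : ℕ)),
      FiniteDimensional ℚ_[(q : ℕ)] K →
      ∃ D : InvDatum (levelsK28 q K) (AK K), IsLocalInv (levelsK28 q K) (AK K) D) :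
    BrTorsionBound q p :=
  brTorsionBound_of_isLocalInv q p fun K hK => by
    obtain ⟨D, hD⟩ := h K hK
    exact ⟨levelsK28 q K, LevelEquiv.refl _, D, hD⟩

/-- "every class of `Br(K)` is unramified", for all finite `K/ℚ_q`: the ONE open hypothesis of
`LocInv28` (helper81's `pres`). -/
def LocalPres : Prop :=
  ∀ (K : IntermediateField ℚ_[(q : ℕ)] (PadicAlgCl (q : ℕ)))
    [FiniteDimensional ℚ_[(q : ℕ)] K],
    ∀ x : (levelsK28 q K).H2 (AK K), ∃ (n : ℕ+) (a : invts (AK K)),
      x = (padicDatum K (levelsK28 q K) (goodLevels_levelsK28 q K)).cls n a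

/-- **`BrTorsionBound` from `pres`.** -/
theorem brTorsionBound_of_localPres (hpres : LocalPres q) : BrTorsionBound q p :=
  brTorsionBound_of_isLocalInv_levelsK q p fun K hK =>
    haveI := hK
    ⟨_, isLocalInv_of_pres K (levelsK28 q K) (goodLevels_levelsK28 q K) (hpres K)⟩

/-- **(P5) `Contract34.LocalDim` from `pres`.** -/
theorem localDim_of_localPres (S : Finset Nat.Primes) (hpres : ∀ q ∈ S, LocalPres q) :
    Contract34.LocalDim p S :=
  localDim_of_brTorsionBound p S fun q hq => brTorsionBound_of_localPres q p (hpres q hq)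

end Bound28

end Fermat.Agent.S55.KummerBr95
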