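/-
S55 / 49-LOC-KUMMER-BR (iv) (helper95), file 1: LEVEL STRUCTURES WITH THE SAME TOPOLOGY.

Two level structures on a group are `LevelEquiv` if every level of one contains a level of the
other.  Then they have the same level cochains/cocycles/coboundaries (EQUAL submodules), the same
smooth modules, and canonically isomorphic level cohomology (`H1Equiv`, `H2Equiv`: identity on
cocycles), compatibly with coefficient maps and restriction.  The three notions of restriction to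
an open subgroup present on main (`LevelStr.comap V.subtype`, `ShapiroLevel32.restrictLevels`,
`CD3.restrictLevels`) are `LevelEquiv`.  Pull-back along a group isomorphism is an isomorphism on
level cohomology (`resEquiv₁`, `resEquiv₂`).
-/
import Fermat.Agent.S55.Profin15.Local
import Fermat.Agent.S55.ShapiroLevel32.Defs
import Fermat.Agent.S55.CD3.Restrict

set_option autoImplicit false

universe u

open CategoryTheory groupCohomology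

namespace Fermat.Agent.S55.KummerBr95

open Fermat.Agent.S55.Profin15

variable {G : Type u} [Group G]

/-- `𝒰'` is finer than `𝒰`: every level of `𝒰` contains a level of `𝒰'`. -/
def LevelLE (𝒰 𝒰' : LevelStr G) : Prop := ∀ U ∈ 𝒰.levels, ∃ U' ∈ 𝒰'.levels, U' ≤ U

/-- the two level structures define the same topology -/
def LevelEquiv (𝒰 𝒰' : LevelStr G) : Prop := LevelLE 𝒰 𝒰' ∧ LevelLE 𝒰' 𝒰

namespace LevelLE

variable {𝒰 𝒰' 𝒰'' : LevelStr G}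

theorem refl (𝒰 : LevelStr G) : LevelLE 𝒰 𝒰 := fun U hU => ⟨U, hU, le_rfl⟩

theorem trans (h : LevelLE 𝒰 𝒰') (h' : LevelLE 𝒰' 𝒰'') : LevelLE 𝒰 𝒰'' := fun U hU => by
  obtain ⟨U', hU', hle⟩ := h U hU
  obtain ⟨U'', hU'', hle'⟩ := h' U' hU'
  exact ⟨U'', hU'', hle'.trans hle⟩

theorem isConst₁ (h : LevelLE 𝒰 𝒰') {X : Type*} {f : G → X} (hf : 𝒰.IsConst₁ f) :
    𝒰'.IsConst₁ f := by
  obtain ⟨U, hU, hc⟩ := hf
  obtain ⟨U', hU', hle⟩ := h U hU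
  exact ⟨U', hU', fun g s hs => hc g s (hle hs)⟩

theorem isConst₂ (h : LevelLE 𝒰 𝒰') {X : Type*} {f : G × G → X} (hf : 𝒰.IsConst₂ f) :
    𝒰'.IsConst₂ f := by
  obtain ⟨U, hU, hc⟩ := hf
  obtain ⟨U', hU', hle⟩ := h U hU
  exact ⟨U', hU', fun g g' s s' hs hs' => hc g g' s s' (hle hs) (hle hs')⟩

theorem isConst₃ (h : LevelLE 𝒰 𝒰') {X : Type*} {f : G × G × G → X} (hf : 𝒰.IsConst₃ f) :
    𝒰'.IsConst₃ f := by
  obtain ⟨U, hU, hc⟩ := hf
  obtain ⟨U', hU', hle⟩ := h U hU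
  exact ⟨U', hU', fun g g' g'' s s' s'' hs hs' hs'' =>
    hc g g' g'' s s' s'' (hle hs) (hle hs') (hle hs'')⟩

theorem isSmooth {k : Type u} [CommRing k] (h : LevelLE 𝒰 𝒰') {M : Rep k G}
    (hM : 𝒰.IsSmooth M) : 𝒰'.IsSmooth M := fun m => by
  obtain ⟨U, hU, hc⟩ := hM m
  obtain ⟨U', hU', hle⟩ := h U hU
  exact ⟨U', hU', fun s hs => hc s (hle hs)⟩

theorem comap {H : Type u} [Group H] (h : LevelLE 𝒰 𝒰') (f : H →* G) :
    LevelLE (𝒰.comap f) (𝒰'.comap f) := by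
  rintro V ⟨U, hU, rfl⟩
  obtain ⟨U', hU', hle⟩ := h U hU
  exact ⟨U'.comap f, ⟨U', hU', rfl⟩, Subgroup.comap_mono hle⟩

end LevelLE

namespace LevelEquiv

variable {𝒰 𝒰' 𝒰'' : LevelStr G}

theorem refl (𝒰 : LevelStr G) : LevelEquiv 𝒰 𝒰 := ⟨LevelLE.refl 𝒰, LevelLE.refl 𝒰⟩

theorem symm (h : LevelEquiv 𝒰 𝒰') : LevelEquiv 𝒰' 𝒰 := ⟨h.2, h.1⟩

theorem trans (h : LevelEquiv 𝒰 𝒰') (h' : LevelEquiv 𝒰' 𝒰'') : LevelEquiv 𝒰 𝒰'' :=
  ⟨h.1.trans h'.1, h'.2.trans h.2⟩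

theorem isConst₁_iff (h : LevelEquiv 𝒰 𝒰') {X : Type*} (f : G → X) :
    𝒰.IsConst₁ f ↔ 𝒰'.IsConst₁ f := ⟨h.1.isConst₁, h.2.isConst₁⟩

theorem isConst₂_iff (h : LevelEquiv 𝒰 𝒰') {X : Type*} (f : G × G → X) :
    𝒰.IsConst₂ f ↔ 𝒰'.IsConst₂ f := ⟨h.1.isConst₂, h.2.isConst₂⟩

theorem isConst₃_iff (h : LevelEquiv 𝒰 𝒰') {X : Type*} (f : G × G × G → X) :
    𝒰.IsConst₃ f ↔ 𝒰'.IsConst₃ f := ⟨h.1.isConst₃, h.2.isConst₃⟩

theorem comap {H : Type u} [Group H] (h : LevelEquiv 𝒰 𝒰') (f : H →* G) :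
    LevelEquiv (𝒰.comap f) (𝒰'.comap f) := ⟨h.1.comap f, h.2.comap f⟩

section Cohomology

variable {k : Type u} [CommRing k] (h : LevelEquiv 𝒰 𝒰') (M : Rep k G)

include h

theorem isSmooth_iff : 𝒰.IsSmooth M ↔ 𝒰'.IsSmooth M := ⟨h.1.isSmooth, h.2.isSmooth⟩

theorem C₁_eq : 𝒰.C₁ M = 𝒰'.C₁ M := by
  ext f; exact h.isConst₁_iff f

theorem C₂_eq : 𝒰.C₂ M = 𝒰'.C₂ M := by
  ext f; exact h.isConst₂_iff f

theorem Z₁_eq : 𝒰.Z₁ M = 𝒰'.Z₁ M := by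
  rw [LevelStr.Z₁, LevelStr.Z₁, h.C₁_eq]

theorem Z₂_eq : 𝒰.Z₂ M = 𝒰'.Z₂ M := by
  rw [LevelStr.Z₂, LevelStr.Z₂, h.C₂_eq]

theorem B₂_eq : 𝒰.B₂ M = 𝒰'.B₂ M := by
  rw [LevelStr.B₂, LevelStr.B₂, h.C₁_eq]

/-- `H¹` does not depend on the choice of cofinal levels -/
noncomputable def H1Equiv : 𝒰.H1 M ≃ₗ[k] 𝒰'.H1 M :=
  quotEquivOfEq (h.Z₁_eq M) rfl

/-- `H²` does not depend on the choice of cofinal levels -/
noncomputable def H2Equiv : 𝒰.H2 M ≃ₗ[k] 𝒰'.H2 M :=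
  quotEquivOfEq (h.Z₂_eq M) (h.B₂_eq M)

@[simp]
theorem H1Equiv_mk (x : ↥(𝒰.Z₁ M)) :
    h.H1Equiv M (𝒰.H1π M x) = 𝒰'.H1π M ⟨(x : G → M), h.Z₁_eq M ▸ x.2⟩ := rfl

@[simp]
theorem H2Equiv_mk (x : ↥(𝒰.Z₂ M)) :
    h.H2Equiv M (𝒰.H2π M x) = 𝒰'.H2π M ⟨(x : G × G → M), h.Z₂_eq M ▸ x.2⟩ := rfl

theorem H1Equiv_symm_mk (x : ↥(𝒰'.Z₁ M)) :
    (h.H1Equiv M).symm (𝒰'.H1π M x) = 𝒰.H1π M ⟨(x : G → M), (h.Z₁_eq M).symm ▸ x.2⟩ := by
  rw [LinearEquiv.symm_apply_eq]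
  rfl

theorem H2Equiv_symm_mk (x : ↥(𝒰'.Z₂ M)) :
    (h.H2Equiv M).symm (𝒰'.H2π M x) = 𝒰.H2π M ⟨(x : G × G → M), (h.Z₂_eq M).symm ▸ x.2⟩ := by
  rw [LinearEquiv.symm_apply_eq]
  rfl

/-- naturality in the coefficients -/
theorem H1Equiv_H1map {A B : Rep k G} (φ : A →ₗ[k] B) (hφ : LevelStr.IsEquivariant φ)
    (x : 𝒰.H1 A) :
    h.H1Equiv B (𝒰.H1map φ hφ x) = 𝒰'.H1map φ hφ (h.H1Equiv A x) := by
  obtain ⟨c, rfl⟩ := Submodule.Quotient.mk_surjective _ x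
  rfl

theorem H2Equiv_H2map {A B : Rep k G} (φ : A →ₗ[k] B) (hφ : LevelStr.IsEquivariant φ)
    (x : 𝒰.H2 A) :
    h.H2Equiv B (𝒰.H2map φ hφ x) = 𝒰'.H2map φ hφ (h.H2Equiv A x) := by
  obtain ⟨c, rfl⟩ := Submodule.Quotient.mk_surjective _ x
  rfl

/-- naturality for restriction along a group homomorphism -/
theorem H1Equiv_res₁ {H : Type u} [Group H] (f : H →* G) (x : 𝒰.H1 M) :
    (h.comap f).H1Equiv (Rep.res f M) (𝒰.res₁ f M x) = 𝒰'.res₁ f M (h.H1Equiv M x) := by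
  obtain ⟨c, rfl⟩ := Submodule.Quotient.mk_surjective _ x
  rfl

theorem H2Equiv_res₂ {H : Type u} [Group H] (f : H →* G) (x : 𝒰.H2 M) :
    (h.comap f).H2Equiv (Rep.res f M) (𝒰.res₂ f M x) = 𝒰'.res₂ f M (h.H2Equiv M x) := by
  obtain ⟨c, rfl⟩ := Submodule.Quotient.mk_surjective _ x
  rfl

end Cohomology

end LevelEquiv

/-! ### The restriction notions on main agree -/

section Restrict

variable (𝒰 : LevelStr G) (V : Subgroup G)

theorem comap_subtype_equiv_restrictLevels32 (hV : ∃ W ∈ 𝒰.levels, W ≤ V) :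
    LevelEquiv (𝒰.comap V.subtype) (ShapiroLevel32.restrictLevels 𝒰 V hV) := by
  constructor
  · rintro W ⟨U, hU, rfl⟩
    obtain ⟨V₀, hV₀, hle₀⟩ := hV
    obtain ⟨U'', hU'', hle⟩ := 𝒰.directed U hU V₀ hV₀
    refine ⟨U''.subgroupOf V, ⟨U'', hU'', (hle.trans inf_le_right).trans hle₀, rfl⟩, ?_⟩
    intro x hx
    exact (hle (Subgroup.mem_subgroupOf.1 hx)).1
  · rintro W ⟨U, hU, -, rfl⟩
    exact ⟨U.comap V.subtype, ⟨U, hU, rfl⟩, le_rfl⟩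

theorem comap_subtype_equiv_restrictLevelsCD3 (hV : CD3.IsOpenSub 𝒰 V) :
    LevelEquiv (𝒰.comap V.subtype) (CD3.restrictLevels 𝒰 V hV) := by
  constructor
  · rintro W ⟨U, hU, rfl⟩
    obtain ⟨V₀, hV₀, hle₀⟩ := hV
    obtain ⟨U'', hU'', hle⟩ := 𝒰.directed U hU V₀ hV₀
    refine ⟨U''.subgroupOf V, ⟨U'', hU'', (hle.trans inf_le_right).trans hle₀, rfl⟩, ?_⟩
    intro x hx
    exact (hle (Subgroup.mem_subgroupOf.1 hx)).1
  · rintro W ⟨U, hU, -, rfl⟩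
    exact ⟨U.comap V.subtype, ⟨U, hU, rfl⟩, le_rfl⟩

end Restrict

/-! ### Pull-back along a group isomorphism -/

section Iso

variable {H : Type u} [Group H] {k : Type u} [CommRing k] (𝒰 : LevelStr G) (e : H ≃* G)
  (M : Rep k G)

theorem isConst₁_comp_symm {X : Type*} {y : H → X}
    (hy : (𝒰.comap (e : H →* G)).IsConst₁ y) : 𝒰.IsConst₁ (y ∘ e.symm) := by
  obtain ⟨U, hU, hc⟩ := (LevelStr.isConst₁_comap_iff 𝒰 (e : H →* G) y).1 hy
  refine ⟨U, hU, fun g s hs => ?_⟩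
  simp only [Function.comp_apply, map_mul]
  exact hc _ _ (by simpa using hs)

theorem isConst₂_comp_symm {X : Type*} {z : H × H → X}
    (hz : (𝒰.comap (e : H →* G)).IsConst₂ z) : 𝒰.IsConst₂ (z ∘ Prod.map e.symm e.symm) := by
  obtain ⟨U, hU, hc⟩ := (LevelStr.isConst₂_comap_iff 𝒰 (e : H →* G) z).1 hz
  refine ⟨U, hU, fun g g' s s' hs hs' => ?_⟩
  simp only [Function.comp_apply, Prod.map_apply, map_mul]
  exact hc _ _ _ _ (by simpa using hs) (by simpa using hs')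

theorem res₁_bijective : Function.Bijective (𝒰.res₁ (e : H →* G) M) := by
  constructor
  · rw [← LinearMap.ker_eq_bot, LinearMap.ker_eq_bot']
    intro x hx
    obtain ⟨c, rfl⟩ := Submodule.Quotient.mk_surjective _ x
    change (𝒰.comap (e : H →* G)).H1π _ (𝒰.resZ₁ (e : H →* G) M c) = 0 at hx
    rw [LevelStr.H1π_eq_zero_iff] at hx
    obtain ⟨m, hm⟩ := hx
    change 𝒰.H1π M c = 0
    rw [LevelStr.H1π_eq_zero_iff]
    refine ⟨m, ?_⟩
    funext g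
    have := congrFun hm (e.symm g)
    simp only [d₀₁_hom_apply] at this ⊢
    have h2 : (𝒰.resZ₁ (e : H →* G) M c : H → M) (e.symm g) = (c : G → M) g := by
      show (c : G → M) (e (e.symm g)) = _
      rw [MulEquiv.apply_symm_apply]
    rw [h2] at this
    rw [← this]
    show _ = M.ρ (e (e.symm g)) m - m
    rw [MulEquiv.apply_symm_apply]
  · intro z
    obtain ⟨c, rfl⟩ := Submodule.Quotient.mk_surjective _ z
    have hc := c.2
    rw [LevelStr.mem_Z₁_iff, mem_cocycles₁_iff] at hc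
    have hx : ((c : H → M) ∘ e.symm : G → M) ∈ 𝒰.Z₁ M := by
      rw [LevelStr.mem_Z₁_iff, mem_cocycles₁_iff]
      refine ⟨fun g g' => ?_, isConst₁_comp_symm 𝒰 e hc.2⟩
      simp only [Function.comp_apply, map_mul]
      rw [hc.1 (e.symm g) (e.symm g')]
      show (M.ρ (e (e.symm g))) _ + _ = _
      rw [MulEquiv.apply_symm_apply]
    refine ⟨𝒰.H1π M ⟨_, hx⟩, ?_⟩
    change (𝒰.comap (e : H →* G)).H1π _ _ = (𝒰.comap (e : H →* G)).H1π _ _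
    congr 1
    apply Subtype.ext
    funext h
    show (c : H → M) (e.symm (e h)) = _
    rw [MulEquiv.symm_apply_apply]

theorem res₂_bijective : Function.Bijective (𝒰.res₂ (e : H →* G) M) := by
  constructor
  · rw [← LinearMap.ker_eq_bot, LinearMap.ker_eq_bot']
    intro x hx
    obtain ⟨c, rfl⟩ := Submodule.Quotient.mk_surjective _ x
    change (𝒰.comap (e : H →* G)).H2π _ (𝒰.resZ₂ (e : H →* G) M c) = 0 at hx
    rw [LevelStr.H2π_eq_zero_iff, LevelStr.mem_B₂_iff] at hx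
    obtain ⟨y, hy, hd⟩ := hx
    change 𝒰.H2π M c = 0
    rw [LevelStr.H2π_eq_zero_iff, LevelStr.mem_B₂_iff]
    refine ⟨y ∘ e.symm, isConst₁_comp_symm 𝒰 e hy, ?_⟩
    funext ⟨g, g'⟩
    have := congrFun hd (e.symm g, e.symm g')
    simp only [d₁₂_hom_apply] at this ⊢
    have h2 : (𝒰.resZ₂ (e : H →* G) M c : H × H → M) (e.symm g, e.symm g') = (c : G × G → M) (g, g') := by
      show (c : G × G → M) (e (e.symm g), e (e.symm g')) = _
      rw [MulEquiv.apply_symm_apply, MulEquiv.apply_symm_apply]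
    rw [h2] at this
    rw [← this]
    simp only [Function.comp_apply, map_mul]
    show _ = (M.ρ (e (e.symm g))) _ - _ + _
    rw [MulEquiv.apply_symm_apply]
  · intro z
    obtain ⟨c, rfl⟩ := Submodule.Quotient.mk_surjective _ z
    have hc := c.2
    rw [LevelStr.mem_Z₂_iff, mem_cocycles₂_iff] at hc
    have hx : ((c : H × H → M) ∘ Prod.map e.symm e.symm : G × G → M) ∈ 𝒰.Z₂ M := by
      rw [LevelStr.mem_Z₂_iff, mem_cocycles₂_iff]
      refine ⟨fun g g' g'' => ?_, isConst₂_comp_symm 𝒰 e hc.2⟩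
      simp only [Function.comp_apply, Prod.map_apply, map_mul]
      rw [hc.1 (e.symm g) (e.symm g') (e.symm g'')]
      show (M.ρ (e (e.symm g))) _ + _ = _
      rw [MulEquiv.apply_symm_apply]
    refine ⟨𝒰.H2π M ⟨_, hx⟩, ?_⟩
    change (𝒰.comap (e : H →* G)).H2π _ _ = (𝒰.comap (e : H →* G)).H2π _ _
    congr 1
    apply Subtype.ext
    funext ⟨h, h'⟩
    show (c : H × H → M) (e.symm (e h), e.symm (e h')) = _
    rw [MulEquiv.symm_apply_apply, MulEquiv.symm_apply_apply]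

/-- `H¹(𝒰; M) ≃ H¹(e^*𝒰; e^*M)` for a group isomorphism `e` -/
noncomputable def resEquiv₁ : 𝒰.H1 M ≃ₗ[k] (𝒰.comap (e : H →* G)).H1 (Rep.res (e : H →* G) M) :=
  LinearEquiv.ofBijective _ (res₁_bijective 𝒰 e M)

/-- `H²(𝒰; M) ≃ H²(e^*𝒰; e^*M)` for a group isomorphism `e` -/
noncomputable def resEquiv₂ : 𝒰.H2 M ≃ₗ[k] (𝒰.comap (e : H →* G)).H2 (Rep.res (e : H →* G) M) :=
  LinearEquiv.ofBijective _ (res₂_bijective 𝒰 e M)

@[simp] theorem resEquiv₁_apply (x : 𝒰.H1 M) :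
    resEquiv₁ 𝒰 e M x = 𝒰.res₁ (e : H →* G) M x := rfl

@[simp] theorem resEquiv₂_apply (x : 𝒰.H2 M) :
    resEquiv₂ 𝒰 e M x = 𝒰.res₂ (e : H →* G) M x := rfl

end Iso

end Fermat.Agent.S55.KummerBr95
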