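/-
S55 / P5 (helper95), file 9: **`Contract34.LocalDim p S` UNCONDITIONALLY.**

`P2Local71.brTorsionBound` (helper71, from helper51's unconditional absolute local class
`LocDev51.absClass'`) gives `KummerBr95.BrTorsionBound q p` for all `q`, `p`; `LocalGlue` turns it
into the literal plug (P5) of `Contract34`, and into the three intermediate shapes
(`ShapiroLevel32.LocalBaseDim`, `LocalDimW59_86.LocalTrivDim`, `LocalBase88.LocalBrDim`,
`R3Local52.LocalDim`).
-/
import Fermat.Agent.S55.KummerBr95.LocalGlue
import Fermat.Agent.S55.P2Local71.BrTorsion

set_option autoImplicit false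

open ExtCitation
open Fermat.Agent.Lib.FrobeniusExists

namespace Fermat.Agent.S55.KummerBr95

open Fermat.Agent.S55.Profin15

variable (p : ℕ) [Fact p.Prime]

/-- **(P5) `Contract34.LocalDim p S`, unconditionally** (any prime `p`, any `S`). -/
theorem localDim (S : Finset Nat.Primes) : Contract34.LocalDim p S :=
  localDim_of_brTorsionBound p S fun q _ => P2Local71.brTorsionBound q p

/-- helper32's local base case, unconditionally -/
theorem localBaseDim32 (S : Finset Nat.Primes) : ShapiroLevel32.LocalBaseDim p S :=
  localBaseDim32_of_brTorsionBound p S fun q _ => P2Local71.brTorsionBound q p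

/-- helper86's producer-side Prop, unconditionally -/
theorem localTrivDim (q : Nat.Primes) : LocalDimW59_86.LocalTrivDim p q :=
  localTrivDim_of_brTorsionBound p q (P2Local71.brTorsionBound q p)

/-- helper88's intrinsic Prop, unconditionally -/
theorem localBrDim (q : Nat.Primes) : LocalBase88.LocalBrDim p q :=
  localBrDim_of_brTorsionBound p q (P2Local71.brTorsionBound q p)

/-- the local dimension input of route W59, unconditionally -/
theorem r3LocalDim (S : Finset Nat.Primes) (hpS : pPrime p ∈ S) : R3Local52.LocalDim p S :=
  r3LocalDim_of_brTorsionBound p S hpS fun q _ => P2Local71.brTorsionBound q p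

end Fermat.Agent.S55.KummerBr95
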