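/-
S55 / 22b (helper95), file 10: **`KummerBr95.LocalPres q` UNCONDITIONALLY**
("every class of `Br(K)` is unramified", all finite `K/ℚ_q`), from helper71's
`P2Local71.pres_levelsK`; consequently helper28's local invariant and helper93's local systems
`UnrExt93.locSys q L _` need no hypothesis.
-/
import Fermat.Agent.S55.KummerBr95.BrBound28
import Fermat.Agent.S55.P2Local71.Pres

set_option autoImplicit false

open ExtCitation
open Fermat.Agent.Lib.FrobeniusExists

namespace Fermat.Agent.S55.KummerBr95

open Fermat.Agent.S55.Profin15 Fermat.Agent.S55.LocInv28.Abstract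

attribute [local instance] fact_prime

/-- **every class of `Br(K)` is unramified, for every finite `K/ℚ_q`** — unconditional. -/
theorem localPres (q : Nat.Primes) : LocalPres q := fun K _ x =>
  P2Local71.pres_levelsK K x

/-- helper28's local invariant datum computes `Br(K)` on the carrier `levelsK28` -/
theorem isLocalInv_levelsK28 (q : Nat.Primes)
    (K : IntermediateField ℚ_[(q : ℕ)] (PadicAlgCl (q : ℕ))) [FiniteDimensional ℚ_[(q : ℕ)] K] :
    IsLocalInv (levelsK28 q K) (LocInv28.Padic.AK K)
      (LocInv28.Padic.padicDatum K (levelsK28 q K) (goodLevels_levelsK28 q K)) :=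
  LocInv28.Padic.isLocalInv_of_pres K (levelsK28 q K) (goodLevels_levelsK28 q K)
    (localPres q K)

/-- **the local invariant `inv_K : Br(K) ≃+ ℚ/ℤ`** on my carrier
`BrK q K = (galLevels K Ω).H2 (galUnits K Ω)`, unconditional. -/
noncomputable def invBrK (q : Nat.Primes)
    (K : IntermediateField ℚ_[(q : ℕ)] (PadicAlgCl (q : ℕ))) [FiniteDimensional ℚ_[(q : ℕ)] K] :
    BrK q K ≃+ AddCircle (1 : ℚ) :=
  (brKEquiv28 q K (LevelEquiv.refl _)).trans
    ((isLocalInv_levelsK28 q K).invEquiv (LocInv28.Padic.vK_surjective K))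

end Fermat.Agent.S55.KummerBr95
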